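import Mathlib
import Fermat.Prelude.Def_ModularCurve_GenusNumerics

/-!
# `SL(2,ℤ) ⧸ Γ0(N)` as the projective line over `ZMod N`

Item 68 piece (D): the bridge between cosets and primitive vectors mod `N`.
-/

open scoped MatrixGroups
open CongruenceSubgroup

namespace Fermat.Agent.Lib.Gamma0Count

variable {N : ℕ}

/-- primitive vectors mod `N` -/
abbrev Prim (N : ℕ) : Type := {p : ZMod N × ZMod N // IsCoprime p.1 p.2}

/-- the "cross product" of two vectors -/
def cross (p q : ZMod N × ZMod N) : ZMod N := p.1 * q.2 - p.2 * q.1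

/-- linear action of an integral matrix on vectors mod `N` -/
def act (g : SL(2, ℤ)) (p : ZMod N × ZMod N) : ZMod N × ZMod N :=
  ((g 0 0 : ZMod N) * p.1 + (g 0 1 : ZMod N) * p.2, (g 1 0 : ZMod N) * p.1 + (g 1 1 : ZMod N) * p.2)

/-- first column mod `N` -/
def colVec (N : ℕ) (g : SL(2, ℤ)) : ZMod N × ZMod N := ((g 0 0 : ZMod N), (g 1 0 : ZMod N))

theorem det_cast (g : SL(2, ℤ)) :
    (g 0 0 : ZMod N) * (g 1 1 : ZMod N) - (g 0 1 : ZMod N) * (g 1 0 : ZMod N) = 1 := by
  have h := g.det_coe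
  rw [Matrix.det_fin_two] at h
  have := congrArg (Int.cast : ℤ → ZMod N) h
  push_cast at this
  exact this

theorem isCoprime_colVec (g : SL(2, ℤ)) : IsCoprime (colVec N g).1 (colVec N g).2 := by
  refine ⟨(g 1 1 : ZMod N), -(g 0 1 : ZMod N), ?_⟩
  have := det_cast (N := N) g
  simp only [colVec]
  linear_combination this

theorem colVec_mul (g h : SL(2, ℤ)) : colVec N (g * h) = act g (colVec N h) := by
  simp only [colVec, act, Matrix.SpecialLinearGroup.coe_mul, Matrix.mul_apply, Fin.sum_univ_two]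
  push_cast
  rfl

theorem act_one (p : ZMod N × ZMod N) : act (1 : SL(2, ℤ)) p = p := by
  simp [act]

theorem act_mul (g h : SL(2, ℤ)) (p : ZMod N × ZMod N) : act (g * h) p = act g (act h p) := by
  simp only [act, Matrix.SpecialLinearGroup.coe_mul, Matrix.mul_apply, Fin.sum_univ_two]
  push_cast
  ext <;> simp <;> ring

theorem cross_act (g : SL(2, ℤ)) (p q : ZMod N × ZMod N) :
    cross (act g p) (act g q) = cross p q := by
  have := det_cast (N := N) g
  simp only [cross, act]
  linear_combination (p.1 * q.2 - p.2 * q.1) * this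

theorem isCoprime_act (g : SL(2, ℤ)) {p : ZMod N × ZMod N} (hp : IsCoprime p.1 p.2) :
    IsCoprime (act g p).1 (act g p).2 := by
  obtain ⟨x, y, hxy⟩ := hp
  have := det_cast (N := N) g
  refine ⟨x * (g 1 1 : ZMod N) - y * (g 1 0 : ZMod N),
    -x * (g 0 1 : ZMod N) + y * (g 0 0 : ZMod N), ?_⟩
  simp only [act]
  linear_combination (x * p.1 + y * p.2) * this + hxy

theorem inv_mul_mem_Gamma0_iff (g h : SL(2, ℤ)) :
    g⁻¹ * h ∈ Gamma0 N ↔ cross (colVec N g) (colVec N h) = 0 := by
  rw [Gamma0_mem]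
  have h1 : (g⁻¹ * h) 1 0 = g 0 0 * h 1 0 - g 1 0 * h 0 0 := by
    rw [Matrix.SpecialLinearGroup.coe_mul, Matrix.SpecialLinearGroup.SL2_inv_expl]
    rw [Matrix.mul_apply, Fin.sum_univ_two]
    simp
    ring
  rw [h1]
  simp only [cross, colVec]
  push_cast
  rfl

/-- two primitive vectors with zero cross product differ by a unit -/
theorem exists_unit_of_cross_eq_zero {p q : ZMod N × ZMod N} (hp : IsCoprime p.1 p.2)
    (hq : IsCoprime q.1 q.2) (h : cross p q = 0) :
    ∃ u : (ZMod N)ˣ, q.1 = u * p.1 ∧ q.2 = u * p.2 := by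
  obtain ⟨x, y, hxy⟩ := hp
  obtain ⟨x', y', hxy'⟩ := hq
  have hc : p.1 * q.2 = p.2 * q.1 := by
    have := h; simp only [cross] at this; linear_combination this
  have hu1 : (x * q.1 + y * q.2) * p.1 = q.1 := by linear_combination q.1 * hxy + y * hc
  have hu2 : (x * q.1 + y * q.2) * p.2 = q.2 := by linear_combination q.2 * hxy - x * hc
  have hv1 : (x' * p.1 + y' * p.2) * q.1 = p.1 := by linear_combination p.1 * hxy' - y' * hc
  have hv2 : (x' * p.1 + y' * p.2) * q.2 = p.2 := by linear_combination p.2 * hxy' + x' * hc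
  have h1 : (x * q.1 + y * q.2) * (x' * p.1 + y' * p.2) = 1 := by
    linear_combination (-(x * q.1 + y * q.2) * (x' * p.1 + y' * p.2)) * hxy
      + (x' * p.1 + y' * p.2) * x * hu1 + (x' * p.1 + y' * p.2) * y * hu2
      + x * hv1 + y * hv2 + hxy
  refine ⟨⟨x * q.1 + y * q.2, x' * p.1 + y' * p.2, h1, by rw [mul_comm]; exact h1⟩, ?_, ?_⟩
  · exact hu1.symm
  · exact hu2.symm

theorem cross_eq_zero_of_unit {p q : ZMod N × ZMod N} (u : ZMod N)
    (h1 : q.1 = u * p.1) (h2 : q.2 = u * p.2) : cross p q = 0 := by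
  simp only [cross, h1, h2]; ring

/-- every primitive vector is a unit multiple of the first column of some `g`. -/
theorem exists_colVec (p : ZMod N × ZMod N) (hp : IsCoprime p.1 p.2) :
    ∃ (g : SL(2, ℤ)) (u : (ZMod N)ˣ), p.1 = u * (colVec N g).1 ∧ p.2 = u * (colVec N g).2 := by
  obtain ⟨a, ha⟩ : ∃ a : ℤ, (a : ZMod N) = p.1 := ZMod.intCast_surjective p.1
  obtain ⟨c, hc⟩ : ∃ c : ℤ, (c : ZMod N) = p.2 := ZMod.intCast_surjective p.2
  by_cases hG : Int.gcd a c = 0
  · -- then `p = 0` and the ring is trivial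
    have ha0 : a = 0 := (Int.gcd_eq_zero_iff.mp hG).1
    have hc0 : c = 0 := (Int.gcd_eq_zero_iff.mp hG).2
    have h1 : p.1 = 0 := by rw [← ha, ha0]; simp
    have h2 : p.2 = 0 := by rw [← hc, hc0]; simp
    obtain ⟨x, y, hxy⟩ := hp
    have h10 : (1 : ZMod N) = 0 := by rw [← hxy, h1, h2]; ring
    have hsub : ∀ z w : ZMod N, z = w := fun z w => by
      rw [← mul_one z, ← mul_one w, h10, mul_zero, mul_zero]
    exact ⟨1, 1, hsub _ _, hsub _ _⟩
  · obtain ⟨G, a', c', hGpos, hcop, haG, hcG⟩ := Int.exists_gcd_one' (Nat.pos_of_ne_zero hG)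
    have hcop' : IsCoprime a' c' := Int.isCoprime_iff_gcd_eq_one.mpr hcop
    obtain ⟨g, hg0, hg1⟩ := IsCoprime.exists_SL2_col hcop' 0
    obtain ⟨x, y, hxy⟩ := hp
    have h1 : p.1 = (G : ZMod N) * (a' : ZMod N) := by
      rw [← ha, haG]; push_cast; ring
    have h2 : p.2 = (G : ZMod N) * (c' : ZMod N) := by
      rw [← hc, hcG]; push_cast; ring
    have hu : (G : ZMod N) * (x * a' + y * c') = 1 := by
      rw [← hxy, h1, h2]; ring
    refine ⟨g, ⟨(G : ZMod N), x * a' + y * c', hu, by rw [mul_comm]; exact hu⟩, ?_, ?_⟩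
    · simp only [colVec, hg0]; exact h1
    · simp only [colVec, hg1]; exact h2

/-- the coset space -/
abbrev X0 (N : ℕ) : Type := SL(2, ℤ) ⧸ Gamma0 N

theorem mk_eq_mk_iff (g h : SL(2, ℤ)) :
    ((g : SL(2, ℤ)) : X0 N) = (h : X0 N) ↔ cross (colVec N g) (colVec N h) = 0 := by
  rw [QuotientGroup.eq, inv_mul_mem_Gamma0_iff]

theorem cross_smul_smul (u v : ZMod N) (p q : ZMod N × ZMod N) :
    cross (u * p.1, u * p.2) (v * q.1, v * q.2) = u * v * cross p q := by
  simp only [cross]; ring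

theorem cross_self (p : ZMod N × ZMod N) : cross p p = 0 := by
  simp only [cross]; ring

theorem cross_comm_eq_zero {p q : ZMod N × ZMod N} (h : cross p q = 0) : cross q p = 0 := by
  simp only [cross] at h ⊢; linear_combination -h

/-- transitivity of "zero cross product" through a primitive vector -/
theorem cross_trans {p q r : ZMod N × ZMod N} (hq : IsCoprime q.1 q.2)
    (h1 : cross p q = 0) (h2 : cross q r = 0) : cross p r = 0 := by
  obtain ⟨x, y, hxy⟩ := hq
  simp only [cross] at h1 h2 ⊢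
  linear_combination (-(p.1 * r.2 - p.2 * r.1)) * hxy + (x * r.1 + y * r.2) * h1
    + (x * p.1 + y * p.2) * h2

/-- the class of a primitive vector -/
noncomputable def cls (p : Prim N) : X0 N :=
  ((exists_colVec p.1 p.2).choose : SL(2, ℤ))

theorem cross_colVec_choose (p : Prim N) :
    cross (colVec N (exists_colVec p.1 p.2).choose) p.1 = 0 := by
  obtain ⟨u, h1, h2⟩ := (exists_colVec p.1 p.2).choose_spec
  exact cross_eq_zero_of_unit (u : ZMod N) h1 h2

theorem cls_eq_mk_iff (p : Prim N) (g : SL(2, ℤ)) :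
    cls p = (g : X0 N) ↔ cross p.1 (colVec N g) = 0 := by
  rw [cls, mk_eq_mk_iff]
  constructor
  · intro h
    exact cross_trans (isCoprime_colVec _) (cross_comm_eq_zero (cross_colVec_choose p)) h
  · intro h
    exact cross_trans p.2 (cross_colVec_choose p) h

theorem cls_eq_cls_iff (p q : Prim N) : cls p = cls q ↔ cross p.1 q.1 = 0 := by
  have hq : cls q = (((exists_colVec q.1 q.2).choose : SL(2, ℤ)) : X0 N) := rfl
  rw [hq, cls_eq_mk_iff]
  constructor
  · intro h
    exact cross_trans (isCoprime_colVec _) h (cross_colVec_choose q)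
  · intro h
    exact cross_trans q.2 h (cross_comm_eq_zero (cross_colVec_choose q))

/-- the primitive vector given by the first column -/
def colPrim (N : ℕ) (g : SL(2, ℤ)) : Prim N := ⟨colVec N g, isCoprime_colVec g⟩

theorem cls_colPrim (g : SL(2, ℤ)) : cls (colPrim N g) = (g : X0 N) := by
  rw [cls_eq_mk_iff]; exact cross_self _

theorem cls_surjective : Function.Surjective (cls (N := N)) := by
  intro x
  obtain ⟨g, rfl⟩ := QuotientGroup.mk_surjective x
  exact ⟨colPrim N g, cls_colPrim g⟩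

/-- action on primitive vectors -/
def actPrim (g : SL(2, ℤ)) (p : Prim N) : Prim N := ⟨act g p.1, isCoprime_act g p.2⟩

theorem smul_cls (g : SL(2, ℤ)) (p : Prim N) : g • cls p = cls (actPrim g p) := by
  obtain ⟨h, hh⟩ := QuotientGroup.mk_surjective (cls p)
  rw [← hh]
  have h1 : cross p.1 (colVec N h) = 0 := (cls_eq_mk_iff p h).mp hh.symm
  have : g • ((h : SL(2, ℤ)) : X0 N) = ((g * h : SL(2, ℤ)) : X0 N) := rfl
  rw [this, eq_comm, cls_eq_mk_iff, colVec_mul]
  show cross (act g p.1) (act g (colVec N h)) = 0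
  rw [cross_act]; exact h1

/-- scaling a primitive vector by a unit -/
def scalePrim (u : (ZMod N)ˣ) (p : Prim N) : Prim N :=
  ⟨((u : ZMod N) * p.1.1, (u : ZMod N) * p.1.2), by
    obtain ⟨x, y, hxy⟩ := p.2
    refine ⟨x * ((u⁻¹ : (ZMod N)ˣ) : ZMod N), y * ((u⁻¹ : (ZMod N)ˣ) : ZMod N), ?_⟩
    have hu : ((u⁻¹ : (ZMod N)ˣ) : ZMod N) * (u : ZMod N) = 1 := by
      rw [← Units.val_mul, inv_mul_cancel, Units.val_one]
    linear_combination (x * p.1.1 + y * p.1.2) * hu + hxy⟩

theorem cls_scalePrim (u : (ZMod N)ˣ) (p : Prim N) : cls (scalePrim u p) = cls p := by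
  rw [cls_eq_cls_iff]
  exact cross_comm_eq_zero (cross_eq_zero_of_unit (u : ZMod N) rfl rfl)

theorem exists_scalePrim_of_cls_eq {p q : Prim N} (h : cls p = cls q) :
    ∃ u : (ZMod N)ˣ, q = scalePrim u p := by
  obtain ⟨u, h1, h2⟩ := exists_unit_of_cross_eq_zero p.2 q.2 ((cls_eq_cls_iff p q).mp h)
  exact ⟨u, Subtype.ext (Prod.ext h1 h2)⟩

theorem scalePrim_injective (p : Prim N) : Function.Injective fun u : (ZMod N)ˣ => scalePrim u p := by
  intro u v h
  obtain ⟨x, y, hxy⟩ := p.2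
  have h1 : (u : ZMod N) * p.1.1 = v * p.1.1 := congrArg (fun q : Prim N => q.1.1) h
  have h2 : (u : ZMod N) * p.1.2 = v * p.1.2 := congrArg (fun q : Prim N => q.1.2) h
  apply Units.ext
  linear_combination (-(u : ZMod N) + v) * hxy + x * h1 + y * h2

/-- `X0 N × (ZMod N)ˣ ≃ Prim N` -/
noncomputable def primEquiv (N : ℕ) : X0 N × (ZMod N)ˣ ≃ Prim N :=
  Equiv.ofBijective (fun xu => scalePrim xu.2 (colPrim N xu.1.out)) (by
    constructor
    · rintro ⟨x, u⟩ ⟨y, v⟩ h
      simp only at h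
      have hx : cls (colPrim N x.out) = cls (colPrim N y.out) := by
        rw [← cls_scalePrim u, h, cls_scalePrim]
      rw [cls_colPrim, cls_colPrim, QuotientGroup.out_eq', QuotientGroup.out_eq'] at hx
      subst hx
      have := scalePrim_injective _ h
      rw [this]
    · intro p
      obtain ⟨u, hu⟩ := exists_scalePrim_of_cls_eq (p := colPrim N (cls p).out) (q := p) (by
        rw [cls_colPrim, QuotientGroup.out_eq'])
      exact ⟨(cls p, u), hu.symm⟩)

theorem card_X0_mul_totient (N : ℕ) [NeZero N] :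
    Nat.card (X0 N) * Nat.totient N = Nat.card (Prim N) := by
  rw [← Nat.card_congr (primEquiv N), Nat.card_prod, Nat.card_eq_fintype_card (α := (ZMod N)ˣ),
    ZMod.card_units_eq_totient]

end Fermat.Agent.Lib.Gamma0Count
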