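import Fermat.Agent.Lib.Gamma0Count.Fixed

/-!
# Orbits of `T` on `SL(2,ℤ) ⧸ Γ0(N)` and the cusp relation on primitive vectors

Item 68 piece (D): reduction of D4 to the `ZMod` statement D4'.
-/

open scoped MatrixGroups
open CongruenceSubgroup

namespace Fermat.Agent.Lib.Gamma0Count

variable {N : ℕ}

/-- the "cusp relation" on primitive vectors: scaling by units and `(a, c) ↦ (a + t c, c)`. -/
def cuspRel (N : ℕ) (p q : Prim N) : Prop :=
  ∃ (u : (ZMod N)ˣ) (t : ZMod N), q.1.1 = u * (p.1.1 + t * p.1.2) ∧ q.1.2 = u * p.1.2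

theorem act_T_zpow (k : ℤ) (p : ZMod N × ZMod N) :
    act (ModularGroup.T ^ k) p = (p.1 + (k : ZMod N) * p.2, p.2) := by
  simp [act, ModularGroup.coe_T_zpow]

theorem cuspRel_iff (p q : Prim N) :
    cuspRel N p q ↔ ∃ k : ℤ, (ModularGroup.T ^ k) • cls p = cls q := by
  constructor
  · rintro ⟨u, t, h1, h2⟩
    obtain ⟨k, rfl⟩ := ZMod.intCast_surjective t
    refine ⟨k, ?_⟩
    rw [smul_cls, cls_eq_cls_iff]
    show cross (act (ModularGroup.T ^ k) p.1) q.1 = 0
    rw [act_T_zpow]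
    simp only [cross, h1, h2]
    ring
  · rintro ⟨k, hk⟩
    rw [smul_cls] at hk
    obtain ⟨u, hu⟩ := exists_scalePrim_of_cls_eq hk
    refine ⟨u, (k : ZMod N), ?_, ?_⟩
    · have := congrArg (fun q : Prim N => q.1.1) hu
      simp only [scalePrim, actPrim, act_T_zpow] at this
      exact this
    · have := congrArg (fun q : Prim N => q.1.2) hu
      simp only [scalePrim, actPrim, act_T_zpow] at this
      exact this

theorem cuspRel_equivalence (N : ℕ) : Equivalence (cuspRel N) := by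
  refine ⟨fun p => ?_, fun {p q} h => ?_, fun {p q r} h1 h2 => ?_⟩
  · rw [cuspRel_iff]; exact ⟨0, by simp⟩
  · rw [cuspRel_iff] at h ⊢
    obtain ⟨k, hk⟩ := h
    exact ⟨-k, by rw [← hk, ← mul_smul, ← zpow_add]; simp⟩
  · rw [cuspRel_iff] at h1 h2 ⊢
    obtain ⟨k, hk⟩ := h1
    obtain ⟨l, hl⟩ := h2
    exact ⟨l + k, by rw [zpow_add, mul_smul, hk, hl]⟩

/-- the cusp setoid on primitive vectors -/
def cuspSetoid (N : ℕ) : Setoid (Prim N) := ⟨cuspRel N, cuspRel_equivalence N⟩

theorem orbitRel_zpowers_T_iff (x y : X0 N) :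
    (MulAction.orbitRel (Subgroup.zpowers ModularGroup.T) (X0 N)) x y ↔
      ∃ k : ℤ, (ModularGroup.T ^ k) • y = x := by
  rw [MulAction.orbitRel_apply, MulAction.mem_orbit_iff]
  constructor
  · rintro ⟨⟨g, k, rfl⟩, hg⟩
    exact ⟨k, hg⟩
  · rintro ⟨k, hk⟩
    exact ⟨⟨ModularGroup.T ^ k, k, rfl⟩, hk⟩

/-- cusp classes of primitive vectors ↔ `T`-orbits on cosets -/
noncomputable def cuspEquiv (N : ℕ) :
    Quotient (cuspSetoid N) ≃
      MulAction.orbitRel.Quotient (Subgroup.zpowers ModularGroup.T) (X0 N) :=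
  Equiv.ofBijective
    (Quotient.map' (s₁ := cuspSetoid N)
      (s₂ := MulAction.orbitRel (Subgroup.zpowers ModularGroup.T) (X0 N)) cls (by
      intro p q h
      rw [orbitRel_zpowers_T_iff]
      obtain ⟨k, hk⟩ := (cuspRel_iff q p).mp ((cuspRel_equivalence N).symm h)
      exact ⟨k, hk⟩)) (by
    constructor
    · intro a b
      refine Quotient.inductionOn₂' a b (fun p q h => ?_)
      rw [Quotient.map'_mk'', Quotient.map'_mk'', Quotient.eq''] at h
      rw [orbitRel_zpowers_T_iff] at h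
      obtain ⟨k, hk⟩ := h
      apply Quotient.sound'
      exact (cuspRel_equivalence N).symm ((cuspRel_iff q p).mpr ⟨k, hk⟩)
    · intro a
      refine Quotient.inductionOn' a (fun x => ?_)
      obtain ⟨p, rfl⟩ := cls_surjective x
      exact ⟨Quotient.mk'' p, rfl⟩)

theorem card_orbits_T_eq (N : ℕ) :
    Nat.card (MulAction.orbitRel.Quotient (Subgroup.zpowers ModularGroup.T)
      (SL(2, ℤ) ⧸ Gamma0 N)) = Nat.card (Quotient (cuspSetoid N)) :=
  (Nat.card_congr (cuspEquiv N)).symm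

end Fermat.Agent.Lib.Gamma0Count
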