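import Fermat.Agent.Lib.Gamma0Count.PrimCount

/-!
# Counting cusp classes of primitive vectors mod `N`

Item 68 piece (D): D4' `card_cuspSetoid` and D4 `card_orbits_T`.
-/

open scoped MatrixGroups
open CongruenceSubgroup

namespace Fermat.Agent.Lib.Gamma0Count

variable {N : ℕ}

/-- reduction `ZMod N → ZMod m` for `m ∣ N` -/
noncomputable abbrev red {m : ℕ} (h : m ∣ N) : ZMod N →+* ZMod m := ZMod.castHom h (ZMod m)

theorem red_natCast {m : ℕ} (h : m ∣ N) (k : ℕ) : red h (k : ZMod N) = (k : ZMod m) :=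
  map_natCast _ _

/-- (S1) the kernel of the reduction mod `m` consists of the multiples of `m`. -/
theorem exists_mul_of_red_eq_zero [NeZero N] {m : ℕ} (h : m ∣ N) (x : ZMod N)
    (hx : red h x = 0) : ∃ s : ZMod N, x = (m : ZMod N) * s := by
  have h1 : red h x = ((x.val : ℕ) : ZMod m) := by
    conv_lhs => rw [← ZMod.natCast_zmod_val x]
    exact red_natCast h _
  rw [h1, ZMod.natCast_eq_zero_iff] at hx
  obtain ⟨s, hs⟩ := hx
  refine ⟨(s : ZMod N), ?_⟩
  conv_lhs => rw [← ZMod.natCast_zmod_val x, hs]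
  push_cast
  rfl

theorem natCast_mul_natCast_eq_zero {d e : ℕ} (h : d * e = N) :
    (d : ZMod N) * (e : ZMod N) = 0 := by
  rw [← Nat.cast_mul, h, ZMod.natCast_self]

/-- (S1') -/
theorem red_eq_zero_of_mul_eq_zero [NeZero N] {d e : ℕ} (h : d * e = N) (x : ZMod N)
    (hx : x * (d : ZMod N) = 0) : red (Dvd.intro_left d h) x = 0 := by
  have hd : d ≠ 0 := by
    rintro rfl
    exact NeZero.ne N (by rw [← h, zero_mul])
  have h1 : red (Dvd.intro_left d h) x = ((x.val : ℕ) : ZMod e) := by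
    conv_lhs => rw [← ZMod.natCast_zmod_val x]
    exact red_natCast _ _
  rw [h1, ZMod.natCast_eq_zero_iff]
  have h2 : ((x.val * d : ℕ) : ZMod N) = 0 := by
    push_cast
    rw [ZMod.natCast_zmod_val]
    exact hx
  rw [ZMod.natCast_eq_zero_iff] at h2
  obtain ⟨k, hk⟩ := h2
  have hk' : x.val * d = e * k * d := by
    rw [hk]
    calc N * k = d * e * k := by rw [h]
      _ = e * k * d := by ring
  exact ⟨k, Nat.eq_of_mul_eq_mul_right (Nat.pos_of_ne_zero hd) hk'⟩

/-- (L1) every element of `ZMod N` is a unit times a divisor of `N`. -/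
theorem exists_unit_mul_divisor [NeZero N] (c : ZMod N) :
    ∃ d : ℕ, d ∣ N ∧ ∃ v : (ZMod N)ˣ, c = v * (d : ZMod N) := by
  have hN : 0 < N := Nat.pos_of_ne_zero (NeZero.ne N)
  set d := Nat.gcd c.val N with hd
  have hdpos : 0 < d := Nat.gcd_pos_of_pos_right _ hN
  have hdN : d ∣ N := Nat.gcd_dvd_right _ _
  have hdc : d ∣ c.val := Nat.gcd_dvd_left _ _
  obtain ⟨e, he⟩ := hdN
  obtain ⟨c₁, hc₁⟩ := hdc
  have hcop : Nat.Coprime c₁ e := by
    have := Nat.coprime_div_gcd_div_gcd (m := c.val) (n := N) hdpos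
    rw [← hd] at this
    rwa [hc₁, Nat.mul_div_cancel_left _ hdpos, he, Nat.mul_div_cancel_left _ hdpos] at this
  have heN : e ∣ N := Dvd.intro_left d he.symm
  obtain ⟨v, hv⟩ := ZMod.unitsMap_surjective heN (ZMod.unitOfCoprime c₁ hcop)
  have hv' : red heN (v : ZMod N) = (c₁ : ZMod e) := by
    have := congrArg (fun u : (ZMod e)ˣ => (u : ZMod e)) hv
    simpa [ZMod.unitsMap_def] using this
  have hker : red heN ((v : ZMod N) - (c₁ : ZMod N)) = 0 := by
    rw [map_sub, hv', red_natCast, sub_self]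
  obtain ⟨s, hs⟩ := exists_mul_of_red_eq_zero heN _ hker
  refine ⟨d, ⟨e, he⟩, v, ?_⟩
  have h0 : (d : ZMod N) * (e : ZMod N) = 0 := natCast_mul_natCast_eq_zero he.symm
  have hc : c = (c₁ : ZMod N) * (d : ZMod N) := by
    conv_lhs => rw [← ZMod.natCast_zmod_val c, hc₁]
    push_cast
    ring
  rw [hc]
  linear_combination (-(d : ZMod N)) * hs - s * h0

/-- (L3a) -/
theorem divisor_eq_of_unit_mul [NeZero N] {d d' : ℕ} (hd : d ∣ N) (hd' : d' ∣ N) (u : (ZMod N)ˣ)
    (h : (d' : ZMod N) = u * (d : ZMod N)) : d = d' := by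
  apply Nat.dvd_antisymm
  · have := congrArg (red hd) h
    rw [map_mul, red_natCast, red_natCast, ZMod.natCast_self, mul_zero,
      ZMod.natCast_eq_zero_iff] at this
    exact this
  · have h' : (d : ZMod N) = ((u⁻¹ : (ZMod N)ˣ) : ZMod N) * (d' : ZMod N) := by
      rw [h, ← mul_assoc, ← Units.val_mul, inv_mul_cancel, Units.val_one, one_mul]
    have := congrArg (red hd') h'
    rw [map_mul, red_natCast, red_natCast, ZMod.natCast_self, mul_zero,
      ZMod.natCast_eq_zero_iff] at this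
    exact this

theorem red_red {m k : ℕ} (hm : m ∣ N) (hk : k ∣ m) (x : ZMod N) :
    ZMod.castHom hk (ZMod k) (red hm x) = red (hk.trans hm) x := by
  have := ZMod.castHom_comp hk hm
  exact congrArg (fun f : ZMod N →+* ZMod k => f x) this

/-- invariance of the class mod `g` under the cusp relation (same `d`) -/
theorem red_eq_of_cuspRel [NeZero N] {d e g : ℕ} (hde : d * e = N) (hgd : g ∣ d) (hge : g ∣ e)
    (a a' : ZMod N) (u : (ZMod N)ˣ) (t : ZMod N)
    (h1 : a' = u * (a + t * (d : ZMod N))) (h2 : (d : ZMod N) = u * (d : ZMod N)) :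
    red (hgd.trans (Dvd.intro e hde)) a' = red (hgd.trans (Dvd.intro e hde)) a := by
  have heN : e ∣ N := Dvd.intro_left d hde
  have hu1 : ((u : ZMod N) - 1) * (d : ZMod N) = 0 := by linear_combination -h2
  have hu2 := red_eq_zero_of_mul_eq_zero hde _ hu1
  obtain ⟨s, hs⟩ := exists_mul_of_red_eq_zero heN _ hu2
  have hge0 : (e : ZMod g) = 0 := (ZMod.natCast_eq_zero_iff _ _).mpr hge
  have hgd0 : (d : ZMod g) = 0 := (ZMod.natCast_eq_zero_iff _ _).mpr hgd
  have hu3 : red (hgd.trans (Dvd.intro e hde)) (u : ZMod N) = 1 := by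
    have := congrArg (red (hgd.trans (Dvd.intro e hde))) hs
    rw [map_sub, map_one, map_mul, red_natCast, hge0, zero_mul] at this
    exact sub_eq_zero.mp this
  rw [h1, map_mul, map_add, map_mul, red_natCast, hgd0, mul_zero, add_zero, hu3, one_mul]

/-- (L2) two vectors `(a, d)`, `(a', d)` with the same class mod `gcd d e` are cusp-related. -/
theorem cuspRel_of_red_eq [NeZero N] {d e : ℕ} (hde : d * e = N)
    (a a' : ZMod N) (ha : IsCoprime a (d : ZMod N)) (ha' : IsCoprime a' (d : ZMod N))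
    (h : red ((Nat.gcd_dvd_left d e).trans (Dvd.intro e hde)) a
      = red ((Nat.gcd_dvd_left d e).trans (Dvd.intro e hde)) a') :
    ∃ (u : (ZMod N)ˣ) (t : ZMod N),
      a' = u * (a + t * (d : ZMod N)) ∧ (d : ZMod N) = u * (d : ZMod N) := by
  have hdN : d ∣ N := Dvd.intro e hde
  have heN : e ∣ N := Dvd.intro_left d hde
  have hd0 : d ≠ 0 := by
    rintro rfl
    exact NeZero.ne N (by rw [← hde, zero_mul])
  have : NeZero d := ⟨hd0⟩
  have hgd : Nat.gcd d e ∣ d := Nat.gcd_dvd_left d e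
  -- Step 1
  have hα : IsUnit (red hdN a) := by
    have := ha.map (red hdN)
    rwa [red_natCast, ZMod.natCast_self, isCoprime_zero_right] at this
  have hα' : IsUnit (red hdN a') := by
    have := ha'.map (red hdN)
    rwa [red_natCast, ZMod.natCast_self, isCoprime_zero_right] at this
  obtain ⟨αi, hαi⟩ := hα.exists_left_inv
  -- Step 2
  set ρ : ZMod d := red hdN a' * αi with hρ
  have hρα : ρ * red hdN a = red hdN a' := by
    rw [hρ, mul_assoc, hαi, mul_one]
  have hρunit : IsUnit ρ := by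
    obtain ⟨αi', hαi'⟩ := hα'.exists_left_inv
    refine IsUnit.of_mul_eq_one (αi' * red hdN a) ?_
    calc ρ * (αi' * red hdN a) = αi' * (ρ * red hdN a) := by ring
      _ = 1 := by rw [hρα, hαi']
  have hRg : ((ρ.val : ℕ) : ZMod (Nat.gcd d e)) = ((1 : ℕ) : ZMod (Nat.gcd d e)) := by
    have h3 := congrArg (ZMod.castHom hgd (ZMod (Nat.gcd d e))) hρα
    rw [map_mul, red_red, red_red, ← h] at h3
    have hβ : IsUnit (red (hgd.trans hdN) a) := by
      have := hα.map (ZMod.castHom hgd (ZMod (Nat.gcd d e)))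
      rwa [red_red] at this
    have h4 : ZMod.castHom hgd (ZMod (Nat.gcd d e)) ρ = 1 := by
      obtain ⟨βi, hβi⟩ := hβ.exists_right_inv
      calc ZMod.castHom hgd (ZMod (Nat.gcd d e)) ρ
          = ZMod.castHom hgd (ZMod (Nat.gcd d e)) ρ * (red (hgd.trans hdN) a * βi) := by
            rw [hβi, mul_one]
        _ = (ZMod.castHom hgd (ZMod (Nat.gcd d e)) ρ * red (hgd.trans hdN) a) * βi := by ring
        _ = 1 := by rw [h3, hβi]
    have h5 : ZMod.castHom hgd (ZMod (Nat.gcd d e)) ρ = ((ρ.val : ℕ) : ZMod (Nat.gcd d e)) := by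
      conv_lhs => rw [← ZMod.natCast_zmod_val ρ]
      exact map_natCast _ _
    rw [← h5, h4, Nat.cast_one]
  -- Step 3
  have hmod : ρ.val ≡ 1 [MOD Nat.gcd d e] := (ZMod.natCast_eq_natCast_iff _ _ _).mp hRg
  obtain ⟨x, hx1, hx2⟩ := Nat.chineseRemainder' hmod
  have hxd : ((x : ℕ) : ZMod d) = ρ := by
    rw [(ZMod.natCast_eq_natCast_iff _ _ _).mpr hx1, ZMod.natCast_zmod_val]
  have hxe : ((x : ℕ) : ZMod e) = 1 := by
    rw [(ZMod.natCast_eq_natCast_iff _ _ _).mpr hx2, Nat.cast_one]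
  have hcopd : Nat.Coprime x d := (ZMod.isUnit_iff_coprime x d).mp (by rw [hxd]; exact hρunit)
  have hcope : Nat.Coprime x e := (ZMod.isUnit_iff_coprime x e).mp (by rw [hxe]; exact isUnit_one)
  have hcopN : Nat.Coprime x N := by
    have := Nat.Coprime.mul_right hcopd hcope
    rwa [hde] at this
  refine ⟨ZMod.unitOfCoprime x hcopN, ?_⟩
  rw [ZMod.coe_unitOfCoprime]
  -- Step 4
  have h0 : (d : ZMod N) * (e : ZMod N) = 0 := natCast_mul_natCast_eq_zero hde
  have hk1 : red heN ((x : ZMod N) - 1) = 0 := by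
    rw [map_sub, map_one, red_natCast, hxe, sub_self]
  obtain ⟨s, hs⟩ := exists_mul_of_red_eq_zero heN _ hk1
  have hud : (d : ZMod N) = (x : ZMod N) * (d : ZMod N) := by
    linear_combination (-(d : ZMod N)) * hs - s * h0
  -- Step 5
  have hk2 : red hdN (a' - (x : ZMod N) * a) = 0 := by
    rw [map_sub, map_mul, red_natCast, hxd, hρα, sub_self]
  obtain ⟨s', hs'⟩ := exists_mul_of_red_eq_zero hdN _ hk2
  have hxu : IsUnit ((x : ℕ) : ZMod N) := (ZMod.isUnit_iff_coprime x N).mpr hcopN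
  obtain ⟨xi, hxi⟩ := hxu.exists_right_inv
  refine ⟨xi * s', ?_, hud⟩
  linear_combination hs' - s' * (d : ZMod N) * hxi

/-- index type for cusps -/
abbrev CuspIdx (N : ℕ) : Type :=
  Σ d : {d : ℕ // d ∈ N.divisors}, (ZMod (Nat.gcd d.1 (N / d.1)))ˣ

theorem CuspIdx.mul_div (d : {d : ℕ // d ∈ N.divisors}) : d.1 * (N / d.1) = N :=
  Nat.mul_div_cancel' (Nat.dvd_of_mem_divisors d.2)

theorem CuspIdx.gcd_dvd (d : {d : ℕ // d ∈ N.divisors}) : Nat.gcd d.1 (N / d.1) ∣ N :=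
  (Nat.gcd_dvd_left _ _).trans (Nat.dvd_of_mem_divisors d.2)

theorem CuspIdx.gcd_ne_zero (d : {d : ℕ // d ∈ N.divisors}) : Nat.gcd d.1 (N / d.1) ≠ 0 := by
  have hd : d.1 ≠ 0 := (Nat.pos_of_mem_divisors d.2).ne'
  exact fun h => hd (Nat.eq_zero_of_gcd_eq_zero_left h)

/-- a unit of `ZMod N` lifting a unit mod `gcd d (N/d)` -/
noncomputable def liftUnit [NeZero N] (x : CuspIdx N) : (ZMod N)ˣ :=
  (ZMod.unitsMap_surjective (CuspIdx.gcd_dvd x.1) x.2).choose

theorem red_liftUnit [NeZero N] (x : CuspIdx N) :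
    red (CuspIdx.gcd_dvd x.1) (liftUnit x : ZMod N) = (x.2 : ZMod _) := by
  have h : ZMod.unitsMap (CuspIdx.gcd_dvd x.1) (liftUnit x) = x.2 :=
    (ZMod.unitsMap_surjective (CuspIdx.gcd_dvd x.1) x.2).choose_spec
  have h' := congrArg Units.val h
  simpa [ZMod.unitsMap_def] using h'

/-- the primitive vector `(lift r, d)` -/
noncomputable def cuspVec [NeZero N] (x : CuspIdx N) : Prim N :=
  ⟨((liftUnit x : ZMod N), (x.1.1 : ZMod N)), isCoprime_of_isUnit_left' (liftUnit x).isUnit⟩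

theorem cuspVec_injective [NeZero N] (x y : CuspIdx N)
    (h : cuspRel N (cuspVec x) (cuspVec y)) : x = y := by
  obtain ⟨u, t, h1, h2⟩ := h
  obtain ⟨⟨d, hd⟩, r⟩ := x
  obtain ⟨⟨d', hd'⟩, r'⟩ := y
  have hdd : d = d' :=
    divisor_eq_of_unit_mul (Nat.dvd_of_mem_divisors hd) (Nat.dvd_of_mem_divisors hd') u h2
  subst hdd
  have hinv := red_eq_of_cuspRel (CuspIdx.mul_div ⟨d, hd⟩) (Nat.gcd_dvd_left _ _)
    (Nat.gcd_dvd_right _ _) _ _ u t h1 h2
  have e1 := red_liftUnit (⟨⟨d, hd⟩, r⟩ : CuspIdx N)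
  have e2 := red_liftUnit (⟨⟨d, hd'⟩, r'⟩ : CuspIdx N)
  have : r = r' := by
    apply Units.ext
    rw [← e1, ← e2]
    exact hinv.symm
  rw [this]

theorem cuspVec_surjective [NeZero N] (p : Prim N) :
    ∃ x : CuspIdx N, cuspRel N (cuspVec x) p := by
  obtain ⟨d, hdN, v, hv⟩ := exists_unit_mul_divisor p.1.2
  have hd : d ∈ N.divisors := Nat.mem_divisors.mpr ⟨hdN, NeZero.ne N⟩
  -- the scaled vector `(v⁻¹ a, d)`
  have hvi : ((v⁻¹ : (ZMod N)ˣ) : ZMod N) * (v : ZMod N) = 1 := by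
    rw [← Units.val_mul, inv_mul_cancel, Units.val_one]
  have hcop : IsCoprime (((v⁻¹ : (ZMod N)ˣ) : ZMod N) * p.1.1) (d : ZMod N) := by
    obtain ⟨x, y, hxy⟩ := p.2
    refine ⟨x * v, y * v, ?_⟩
    linear_combination hxy - y * hv + x * p.1.1 * hvi
  have hg : IsUnit (red (CuspIdx.gcd_dvd ⟨d, hd⟩) (((v⁻¹ : (ZMod N)ˣ) : ZMod N) * p.1.1)) := by
    have := hcop.map (red (CuspIdx.gcd_dvd ⟨d, hd⟩))
    rwa [red_natCast, (ZMod.natCast_eq_zero_iff _ _).mpr (Nat.gcd_dvd_left _ _),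
      isCoprime_zero_right] at this
  refine ⟨⟨⟨d, hd⟩, hg.unit⟩, ?_⟩
  obtain ⟨u, t, h1, h2⟩ := cuspRel_of_red_eq (CuspIdx.mul_div ⟨d, hd⟩)
    (liftUnit (⟨⟨d, hd⟩, hg.unit⟩ : CuspIdx N) : ZMod N)
    (((v⁻¹ : (ZMod N)ˣ) : ZMod N) * p.1.1)
    (isCoprime_of_isUnit_left' (liftUnit _).isUnit) hcop
    ((red_liftUnit (⟨⟨d, hd⟩, hg.unit⟩ : CuspIdx N)).trans hg.unit_spec)
  refine ⟨v * u, t, ?_, ?_⟩
  · show p.1.1 = ((v * u : (ZMod N)ˣ) : ZMod N) *
      ((liftUnit (⟨⟨d, hd⟩, hg.unit⟩ : CuspIdx N) : ZMod N) + t * (d : ZMod N))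
    rw [Units.val_mul]
    have hvv : (v : ZMod N) * ((v⁻¹ : (ZMod N)ˣ) : ZMod N) = 1 := by
      rw [← Units.val_mul, mul_inv_cancel, Units.val_one]
    linear_combination (v : ZMod N) * h1 - p.1.1 * hvv
  · show p.1.2 = ((v * u : (ZMod N)ˣ) : ZMod N) * (d : ZMod N)
    rw [Units.val_mul, hv]
    linear_combination (v : ZMod N) * h2

/-- cusp classes ↔ pairs `(d, r)` -/
noncomputable def cuspIdxEquiv (N : ℕ) [NeZero N] : CuspIdx N ≃ Quotient (cuspSetoid N) :=
  Equiv.ofBijective (fun x => (Quotient.mk (cuspSetoid N) (cuspVec x))) (by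
    constructor
    · intro x y h
      exact cuspVec_injective x y (Quotient.exact h)
    · intro q
      refine Quotient.inductionOn q (fun p => ?_)
      obtain ⟨x, hx⟩ := cuspVec_surjective p
      exact ⟨x, Quotient.sound hx⟩)

theorem card_cuspIdx (N : ℕ) [NeZero N] : Nat.card (CuspIdx N) = ModularCurve.cuspCount N := by
  have hne : ∀ d : {d : ℕ // d ∈ N.divisors}, NeZero (Nat.gcd d.1 (N / d.1)) :=
    fun d => ⟨CuspIdx.gcd_ne_zero d⟩
  have hfin : ∀ d : {d : ℕ // d ∈ N.divisors}, Finite (ZMod (Nat.gcd d.1 (N / d.1)))ˣ :=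
    fun d => by have := hne d; infer_instance
  rw [Nat.card_sigma (β := fun d : {d : ℕ // d ∈ N.divisors} => (ZMod (Nat.gcd d.1 (N / d.1)))ˣ),
    ModularCurve.cuspCount,
    ← Finset.sum_coe_sort N.divisors (fun d => Nat.totient (Nat.gcd d (N / d)))]
  refine Finset.sum_congr rfl (fun d _ => ?_)
  have := hne d
  rw [Nat.card_eq_fintype_card, ZMod.card_units_eq_totient]

/-- D4' -/
theorem card_cuspSetoid (N : ℕ) [NeZero N] :
    Nat.card (Quotient (cuspSetoid N)) = ModularCurve.cuspCount N := by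
  rw [← Nat.card_congr (cuspIdxEquiv N), card_cuspIdx]

/-- D4: the number of orbits of `T` on `SL(2,ℤ) ⧸ Γ0(N)` is the number of cusps. -/
theorem card_orbits_T (N : ℕ) [NeZero N] :
    Nat.card (MulAction.orbitRel.Quotient (Subgroup.zpowers ModularGroup.T)
      (SL(2, ℤ) ⧸ Gamma0 N)) = ModularCurve.cuspCount N := by
  rw [card_orbits_T_eq, card_cuspSetoid]

end Fermat.Agent.Lib.Gamma0Count
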