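import Fermat.Agent.Lib.Gamma0Count.Bridge

/-!
# Fixed points of `S` and `S * T` on `SL(2,ℤ) ⧸ Γ0(N)`

Item 68 piece (D): D2 and D3.
-/

open scoped MatrixGroups
open CongruenceSubgroup

namespace Fermat.Agent.Lib.Gamma0Count

variable {N : ℕ}

theorem smul_cls_eq_iff (g : SL(2, ℤ)) (p : Prim N) :
    g • cls p = cls p ↔ cross (act g p.1) p.1 = 0 := by
  rw [smul_cls, cls_eq_cls_iff]; rfl

/-- the point `[u : 1]` -/
noncomputable def pt (u : ZMod N) : X0 N := cls ⟨(u, 1), isCoprime_one_right⟩

theorem pt_injective : Function.Injective (pt (N := N)) := by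
  intro u v h
  have := (cls_eq_cls_iff _ _).mp h
  simp only [cross] at this
  linear_combination this

theorem act_S (p : ZMod N × ZMod N) : act ModularGroup.S p = (-p.2, p.1) := by
  simp [act, ModularGroup.coe_S]

theorem act_ST (p : ZMod N × ZMod N) :
    act (ModularGroup.S * ModularGroup.T) p = (-p.2, p.1 + p.2) := by
  rw [act_mul]
  simp [act, ModularGroup.coe_S, ModularGroup.coe_T]

theorem act_T (p : ZMod N × ZMod N) : act ModularGroup.T p = (p.1 + p.2, p.2) := by
  simp [act, ModularGroup.coe_T]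

/-- if `a² + k a c + c² = 0` with `(a, c)` primitive then `c` is a unit. -/
theorem isUnit_of_quadratic {a c : ZMod N} (k : ZMod N) (hp : IsCoprime a c)
    (h : a ^ 2 + k * a * c + c ^ 2 = 0) : IsUnit c := by
  obtain ⟨x, y, hxy⟩ := hp
  refine IsUnit.of_mul_eq_one (-k * x ^ 2 * a - x ^ 2 * c + 2 * x * y * a + y ^ 2 * c) ?_
  linear_combination (x * a + y * c + 1) * hxy - x ^ 2 * h

theorem fixed_iff_quadratic (g : SL(2, ℤ)) (k : ZMod N)
    (hg : ∀ p : ZMod N × ZMod N, act g p = (-p.2, p.1 + k * p.2)) (p : Prim N) :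
    g • cls p = cls p ↔ p.1.1 ^ 2 + k * p.1.1 * p.1.2 + p.1.2 ^ 2 = 0 := by
  rw [smul_cls_eq_iff, hg]
  simp only [cross]
  constructor <;> intro h <;> linear_combination -h

/-- fixed points of an element acting by `(a, c) ↦ (-c, a + k c)` are the `[u : 1]` with
`u² + k u + 1 = 0`. -/
noncomputable def fixedEquiv (g : SL(2, ℤ)) (k : ZMod N)
    (hg : ∀ p : ZMod N × ZMod N, act g p = (-p.2, p.1 + k * p.2)) :
    {u : ZMod N // u ^ 2 + k * u + 1 = 0} ≃ MulAction.fixedBy (X0 N) g :=
  Equiv.ofBijective (fun u => ⟨pt u.1, by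
      rw [MulAction.mem_fixedBy, pt, fixed_iff_quadratic g k hg]
      have := u.2
      simp only
      linear_combination this⟩) (by
    constructor
    · intro u v h
      exact Subtype.ext (pt_injective (congrArg Subtype.val h))
    · rintro ⟨x, hx⟩
      obtain ⟨p, rfl⟩ := cls_surjective x
      rw [MulAction.mem_fixedBy, fixed_iff_quadratic g k hg] at hx
      obtain ⟨c', hc'⟩ := (isUnit_of_quadratic k p.2 hx).exists_right_inv
      have hc'' : c' * p.1.2 = 1 := by rw [mul_comm]; exact hc'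
      refine ⟨⟨p.1.1 * c', ?_⟩, ?_⟩
      · linear_combination c' ^ 2 * hx + (-k * p.1.1 * c' - c' * p.1.2 - 1) * hc''
      · apply Subtype.ext
        show pt (p.1.1 * c') = cls p
        rw [pt, cls_eq_cls_iff]
        simp only [cross]
        linear_combination p.1.1 * hc'')

theorem card_fixedBy_S (N : ℕ) :
    Nat.card (MulAction.fixedBy (SL(2, ℤ) ⧸ Gamma0 N) ModularGroup.S) = ModularCurve.nuTwo N := by
  have e := fixedEquiv (N := N) ModularGroup.S 0 (fun p => by rw [act_S]; simp)
  rw [← Nat.card_congr e, ModularCurve.nuTwo]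
  apply Nat.card_congr
  exact Equiv.subtypeEquivRight (fun u => by simp)

theorem card_fixedBy_ST (N : ℕ) :
    Nat.card (MulAction.fixedBy (SL(2, ℤ) ⧸ Gamma0 N) (ModularGroup.S * ModularGroup.T))
      = ModularCurve.nuThree N := by
  have e := fixedEquiv (N := N) (ModularGroup.S * ModularGroup.T) 1 (fun p => by rw [act_ST]; simp)
  rw [← Nat.card_congr e, ModularCurve.nuThree]
  apply Nat.card_congr
  exact Equiv.subtypeEquivRight (fun u => by simp)

end Fermat.Agent.Lib.Gamma0Count
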