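import Mathlib

/-!
# Hermite normal form of `!![d, 0; 0, 1] * γ`

Item 68, F4 of helper8's contract: for `γ ∈ SL(2,ℤ)` and `d > 0` there are `δ ∈ SL(2,ℤ)` and
naturals `A, B, D` with `A * D = d`, `B < D`, `!![d,0;0,1] * γ = δ * !![A,B;0,D]`,
and `A = gcd(d, γ 1 0)`.
-/

open scoped MatrixGroups
open CongruenceSubgroup

namespace Fermat.Agent.Lib.Gamma0Count

theorem hermite_aux (d : ℕ) (hd : 0 < d) (γ : SL(2, ℤ)) :
    ∃ (δ : SL(2, ℤ)) (B : ℤ),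
      (!![(d : ℤ), 0; 0, 1] * (γ : Matrix (Fin 2) (Fin 2) ℤ)) =
        (δ : Matrix (Fin 2) (Fin 2) ℤ) *
          !![((Nat.gcd d (γ 1 0).natAbs : ℕ) : ℤ), B; 0,
            ((d / Nat.gcd d (γ 1 0).natAbs : ℕ) : ℤ)] := by
  have hdet : γ 0 0 * γ 1 1 - γ 0 1 * γ 1 0 = 1 := by
    have h := γ.det_coe
    rw [Matrix.det_fin_two] at h
    exact h
  set g : ℕ := Nat.gcd d (γ 1 0).natAbs with hg
  have hgpos : 0 < g := Nat.gcd_pos_of_pos_left _ hd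
  have hgd : g ∣ d := Nat.gcd_dvd_left _ _
  have hgc : (g : ℤ) ∣ γ 1 0 := by
    have : g ∣ (γ 1 0).natAbs := Nat.gcd_dvd_right _ _
    exact Int.natCast_dvd.mpr this
  obtain ⟨d', hd'⟩ := hgd
  obtain ⟨c', hc'⟩ := hgc
  have hdiv : d / g = d' := by rw [hd', Nat.mul_div_cancel_left _ hgpos]
  have hcop1 : IsCoprime (d' : ℤ) c' := by
    have h1 : Nat.Coprime (d / g) ((γ 1 0).natAbs / g) := Nat.coprime_div_gcd_div_gcd hgpos
    rw [hdiv] at h1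
    have h2 : (γ 1 0).natAbs / g = c'.natAbs := by
      rw [hc', Int.natAbs_mul, Int.natAbs_natCast, Nat.mul_div_cancel_left _ hgpos]
    rw [h2] at h1
    rw [Int.isCoprime_iff_gcd_eq_one]
    simpa [Int.gcd] using h1
  have hcop2 : IsCoprime (γ 0 0) c' := by
    refine ⟨γ 1 1, -(γ 0 1 * g), ?_⟩
    linear_combination hdet + γ 0 1 * hc'
  have hcop : IsCoprime ((d' : ℤ) * γ 0 0) c' := IsCoprime.mul_left hcop1 hcop2
  obtain ⟨δ, hδ0, hδ1⟩ := IsCoprime.exists_SL2_col hcop 0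
  have hδdet : δ 0 0 * δ 1 1 - δ 0 1 * δ 1 0 = 1 := by
    have h := δ.det_coe
    rw [Matrix.det_fin_two] at h
    exact h
  rw [hδ0, hδ1] at hδdet
  have hdZ : (d : ℤ) = (g : ℤ) * d' := by exact_mod_cast hd'
  refine ⟨δ, δ 1 1 * d * γ 0 1 - δ 0 1 * γ 1 1, ?_⟩
  rw [hdiv]
  ext i j
  fin_cases i <;> fin_cases j
  · simp [Matrix.mul_apply, Fin.sum_univ_two, hδ0]
    linear_combination (γ 0 0) * hdZ
  · simp [Matrix.mul_apply, Fin.sum_univ_two, hδ0]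
    linear_combination (-(d:ℤ) * γ 0 1) * hδdet - (δ 0 1 * c' * γ 0 1) * hdZ
      + (δ 0 1 * d' * γ 0 1) * hc' + (δ 0 1 * d') * hdet
  · simp [Matrix.mul_apply, Fin.sum_univ_two, hδ1]
    linear_combination hc'
  · simp [Matrix.mul_apply, Fin.sum_univ_two, hδ1]
    linear_combination (-(γ 1 1)) * hδdet + (δ 1 1 * d') * hdet + (δ 1 1 * γ 0 1 * d') * hc'
      - (δ 1 1 * γ 0 1 * c') * hdZ

/-- F4 (Hermite normal form). -/
theorem hermite (d : ℕ) (hd : 0 < d) (γ : SL(2, ℤ)) :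
    ∃ (δ : SL(2, ℤ)) (A B D : ℕ), A * D = d ∧ B < D ∧ A = Nat.gcd d (γ 1 0).natAbs ∧
      (!![(d : ℤ), 0; 0, 1] * (γ : Matrix (Fin 2) (Fin 2) ℤ)) =
        (δ : Matrix (Fin 2) (Fin 2) ℤ) * !![(A : ℤ), (B : ℤ); 0, (D : ℤ)] := by
  obtain ⟨δ, B, h⟩ := hermite_aux d hd γ
  set A : ℕ := Nat.gcd d (γ 1 0).natAbs with hA
  set D : ℕ := d / A with hD
  have hApos : 0 < A := Nat.gcd_pos_of_pos_left _ hd
  have hAD : A * D = d := Nat.mul_div_cancel' (Nat.gcd_dvd_left _ _)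
  have hDpos : 0 < D := by
    rcases Nat.eq_zero_or_pos D with h0 | h0
    · rw [h0, mul_zero] at hAD; omega
    · exact h0
  have hDZ : (0 : ℤ) < D := by exact_mod_cast hDpos
  refine ⟨δ * ModularGroup.T ^ (B / (D : ℤ)), A, (B % (D : ℤ)).toNat, D, hAD, ?_, rfl, ?_⟩
  · have h1 := Int.emod_lt_of_pos B hDZ
    have h2 := Int.emod_nonneg B hDZ.ne'
    omega
  · rw [h, Matrix.SpecialLinearGroup.coe_mul, ModularGroup.coe_T_zpow, Matrix.mul_assoc]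
    congr 1
    have h2 := Int.emod_nonneg B hDZ.ne'
    have h3 : ((B % (D : ℤ)).toNat : ℤ) = B % D := Int.toNat_of_nonneg h2
    rw [h3]
    ext i j
    fin_cases i <;> fin_cases j
    · simp [Matrix.mul_apply, Fin.sum_univ_two]
    · simp [Matrix.mul_apply, Fin.sum_univ_two]
      have := Int.emod_add_mul_ediv B D
      linear_combination -this
    · simp [Matrix.mul_apply, Fin.sum_univ_two]
    · simp [Matrix.mul_apply, Fin.sum_univ_two]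

/-- for `d = N`: `A = N` iff `γ ∈ Γ0(N)`. -/
theorem gcd_eq_iff_mem_Gamma0 (N : ℕ) (γ : SL(2, ℤ)) :
    Nat.gcd N (γ 1 0).natAbs = N ↔ γ ∈ Gamma0 N := by
  rw [Gamma0_mem, ZMod.intCast_zmod_eq_zero_iff_dvd, Nat.gcd_eq_left_iff_dvd, Int.natCast_dvd]

end Fermat.Agent.Lib.Gamma0Count
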