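import Mathlib

/-!
# Counting the orbits of a permutation

For a permutation `σ` of a finite type `α`, the number of `SameCycle`-classes is
`#fixed points + #cycles`. Consequences: the sign of `σ` is `(-1) ^ (n - #orbits)`.
-/

set_option autoImplicit false

open Equiv Equiv.Perm

namespace Fermat.Agent.Lib.Gamma0Count

variable {α : Type*} [Fintype α] [DecidableEq α]

/-- The classifying map on points: a fixed point goes to itself, a moved point to its cycle. -/
noncomputable def orbitCode (σ : Perm α) (a : α) :
    {a : α // σ a = a} ⊕ {c : Perm α // c ∈ σ.cycleFactorsFinset} :=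
  if h : σ a = a then Sum.inl ⟨a, h⟩
  else Sum.inr ⟨σ.cycleOf a, cycleOf_mem_cycleFactorsFinset_iff.mpr (mem_support.mpr h)⟩

theorem orbitCode_eq_iff (σ : Perm α) (a b : α) :
    orbitCode σ a = orbitCode σ b ↔ σ.SameCycle a b := by
  unfold orbitCode
  by_cases ha : σ a = a
  · by_cases hb : σ b = b
    · rw [dif_pos ha, dif_pos hb]
      constructor
      · intro h
        have : a = b := by simpa using h
        subst this
        exact SameCycle.refl σ a
      · intro h
        have : a = b := h.eq_of_left ha
        subst this
        rfl
    · rw [dif_pos ha, dif_neg hb]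
      constructor
      · intro h
        exact absurd h (by simp)
      · intro h
        exact absurd (h.apply_eq_self_iff.mp ha) hb
  · by_cases hb : σ b = b
    · rw [dif_neg ha, dif_pos hb]
      constructor
      · intro h
        exact absurd h (by simp)
      · intro h
        exact absurd (h.apply_eq_self_iff.mpr hb) ha
    · rw [dif_neg ha, dif_neg hb]
      constructor
      · intro h
        have h' : σ.cycleOf a = σ.cycleOf b := by simpa using h
        exact (sameCycle_iff_cycleOf_eq_of_mem_support (mem_support.mpr ha)
          (mem_support.mpr hb)).mpr h'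
      · intro h
        have := h.cycleOf_eq
        simp [this]

theorem orbitCode_surjective (σ : Perm α) : Function.Surjective (orbitCode σ) := by
  rintro (⟨a, ha⟩ | ⟨c, hc⟩)
  · exact ⟨a, by simp [orbitCode, ha]⟩
  · obtain ⟨a, ha⟩ := (mem_cycleFactorsFinset_iff.mp hc).1.nonempty_support
    have h1 : a ∈ σ.support := mem_cycleFactorsFinset_support_le hc ha
    have h2 : c = σ.cycleOf a := cycle_is_cycleOf ha hc
    refine ⟨a, ?_⟩
    unfold orbitCode
    rw [dif_neg (mem_support.mp h1)]
    simp [h2]

/-- The orbits of a permutation are in bijection with fixed points plus cycles. -/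
noncomputable def orbitEquiv (σ : Perm α) :
    Quotient (SameCycle.setoid σ) ≃
      {a : α // σ a = a} ⊕ {c : Perm α // c ∈ σ.cycleFactorsFinset} :=
  Equiv.ofBijective
    (Quotient.lift (orbitCode σ) (fun a b (h : σ.SameCycle a b) =>
      (orbitCode_eq_iff σ a b).mpr h))
    ⟨by
      intro q₁ q₂
      induction q₁ using Quotient.inductionOn with | _ a => ?_
      induction q₂ using Quotient.inductionOn with | _ b => ?_
      intro h
      exact Quotient.sound ((orbitCode_eq_iff σ a b).mp h),
     fun y => by
      obtain ⟨a, rfl⟩ := orbitCode_surjective σ y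
      exact ⟨Quotient.mk _ a, rfl⟩⟩

theorem card_sameCycle_quotient (σ : Perm α) :
    Nat.card (Quotient (SameCycle.setoid σ)) + σ.cycleType.sum =
      Fintype.card α + Multiset.card σ.cycleType := by
  classical
  rw [Nat.card_congr (orbitEquiv σ), Nat.card_sum, Nat.card_eq_fintype_card,
    Nat.card_eq_fintype_card]
  have h1 : Fintype.card {a : α // σ a = a} = Fintype.card α - σ.cycleType.sum := by
    rw [← card_fixedPoints σ]
    exact Fintype.card_congr (Equiv.refl _)
  have h2 : Fintype.card {c : Perm α // c ∈ σ.cycleFactorsFinset} =
      Multiset.card σ.cycleType := by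
    rw [Fintype.card_coe, cycleType_def, Multiset.card_map]
    rfl
  have h3 := sum_cycleType_le σ
  rw [h1, h2]
  omega

/-- The sign of a permutation in terms of the number of its orbits. -/
theorem sign_eq_neg_one_pow_card (σ : Perm α) :
    (Perm.sign σ : ℤ) =
      (-1) ^ (Fintype.card α + Nat.card (Quotient (SameCycle.setoid σ))) := by
  have h := card_sameCycle_quotient σ
  rw [sign_of_cycleType]
  have h2 : Even (Fintype.card α + Nat.card (Quotient (SameCycle.setoid σ))
      + (σ.cycleType.sum + Multiset.card σ.cycleType)) := by
    have : Fintype.card α + Nat.card (Quotient (SameCycle.setoid σ))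
      + (σ.cycleType.sum + Multiset.card σ.cycleType)
        = 2 * (Fintype.card α + Multiset.card σ.cycleType) := by omega
    rw [this]
    exact even_two_mul _
  push_cast
  rcases Nat.even_or_odd (σ.cycleType.sum + Multiset.card σ.cycleType) with he | ho
  · have he' : Even (Fintype.card α + Nat.card (Quotient (SameCycle.setoid σ))) := by
      rcases Nat.even_or_odd (Fintype.card α + Nat.card (Quotient (SameCycle.setoid σ)))
        with h3 | h3
      · exact h3
      · exact absurd h2 (by
          rw [Nat.not_even_iff_odd]
          exact h3.add_even he)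
    rw [he.neg_one_pow, he'.neg_one_pow]
  · have ho' : Odd (Fintype.card α + Nat.card (Quotient (SameCycle.setoid σ))) := by
      rcases Nat.even_or_odd (Fintype.card α + Nat.card (Quotient (SameCycle.setoid σ)))
        with h3 | h3
      · exact absurd h2 (by
          rw [Nat.not_even_iff_odd]
          exact h3.add_odd ho)
      · exact h3
    rw [ho.neg_one_pow, ho'.neg_one_pow]

end Fermat.Agent.Lib.Gamma0Count
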