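import Fermat.Agent.Lib.Gamma0Count.CuspBridge

/-!
# Counting primitive vectors mod `N`; the index of `Γ0(N)`

Item 68 piece (D): D1' `card_prim` and D1 `card_quotient`.
-/

open scoped MatrixGroups
open CongruenceSubgroup

namespace Fermat.Agent.Lib.Gamma0Count

/-! ## `dedekindPsi` is multiplicative -/

/-- indicator of squarefree numbers as an arithmetic function -/
noncomputable def sqfInd : ArithmeticFunction ℕ :=
  ⟨fun n => if Squarefree n then 1 else 0, by simp⟩

theorem sqfInd_apply (n : ℕ) : sqfInd n = if Squarefree n then 1 else 0 := rfl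

theorem sqfInd_isMultiplicative : sqfInd.IsMultiplicative := by
  refine ⟨by simp [sqfInd_apply], fun {m n} h => ?_⟩
  have hc : m.gcd n = 1 := h
  simp only [sqfInd_apply, Nat.squarefree_mul_iff]
  by_cases hm : Squarefree m <;> by_cases hn : Squarefree n <;> simp [hm, hn, hc]

theorem dedekindPsi_eq (N : ℕ) :
    ModularCurve.dedekindPsi N = (sqfInd * ArithmeticFunction.id) N := by
  rw [ArithmeticFunction.mul_apply,
    Nat.sum_divisorsAntidiagonal (fun d e => sqfInd d * ArithmeticFunction.id e),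
    ModularCurve.dedekindPsi, Finset.sum_filter]
  refine Finset.sum_congr rfl (fun d _ => ?_)
  by_cases hd : Squarefree d <;> simp [sqfInd_apply, hd]

theorem dedekindPsi_mul {m n : ℕ} (h : m.Coprime n) :
    ModularCurve.dedekindPsi (m * n) = ModularCurve.dedekindPsi m * ModularCurve.dedekindPsi n := by
  rw [dedekindPsi_eq, dedekindPsi_eq, dedekindPsi_eq]
  exact (sqfInd_isMultiplicative.mul ArithmeticFunction.isMultiplicative_id).map_mul_of_coprime h

theorem dedekindPsi_prime_pow {p k : ℕ} (hp : p.Prime) (hk : 0 < k) :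
    ModularCurve.dedekindPsi (p ^ k) = p ^ k + p ^ (k - 1) := by
  obtain ⟨j, rfl⟩ : ∃ j, k = j + 1 := ⟨k - 1, by omega⟩
  rw [ModularCurve.dedekindPsi, Nat.divisors_prime_pow hp, Finset.sum_filter, Finset.sum_map]
  simp only [Function.Embedding.coeFn_mk, Nat.add_sub_cancel]
  rw [Finset.sum_range_succ', Finset.sum_range_succ']
  have hrest : ∀ i ∈ Finset.range j,
      (if Squarefree (p ^ (i + 1 + 1)) then p ^ (j + 1) / p ^ (i + 1 + 1) else 0) = 0 := by
    intro i _
    rw [if_neg]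
    intro hsq
    have := (Nat.squarefree_pow_iff hp.ne_one (by omega)).mp hsq
    omega
  rw [Finset.sum_eq_zero hrest]
  simp only [zero_add, pow_zero, squarefree_one, if_true, Nat.div_one, pow_one,
    hp.prime.irreducible.squarefree]
  rw [add_comm]
  congr 1
  rw [pow_succ, Nat.mul_div_cancel _ hp.pos]

/-! ## primitive vectors: multiplicativity -/

theorem isCoprime_prod_iff {R S : Type*} [CommRing R] [CommRing S] (a c : R × S) :
    IsCoprime a c ↔ IsCoprime a.1 c.1 ∧ IsCoprime a.2 c.2 := by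
  constructor
  · rintro ⟨x, y, hxy⟩
    exact ⟨⟨x.1, y.1, congrArg Prod.fst hxy⟩, ⟨x.2, y.2, congrArg Prod.snd hxy⟩⟩
  · rintro ⟨⟨x₁, y₁, h₁⟩, ⟨x₂, y₂, h₂⟩⟩
    exact ⟨(x₁, x₂), (y₁, y₂), Prod.ext h₁ h₂⟩

theorem isCoprime_ringEquiv_iff {R S : Type*} [CommRing R] [CommRing S] (e : R ≃+* S) (a c : R) :
    IsCoprime (e a) (e c) ↔ IsCoprime a c := by
  constructor
  · intro h
    have := h.map (e.symm : S →+* R)
    simpa using this
  · intro h
    exact h.map (e : R →+* S)

/-- primitive vectors over a product ring -/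
noncomputable def primProdEquivGen {R S T : Type*} [CommRing R] [CommRing S] [CommRing T]
    (e : R ≃+* S × T) :
    {p : R × R // IsCoprime p.1 p.2} ≃
      {p : S × S // IsCoprime p.1 p.2} × {p : T × T // IsCoprime p.1 p.2} where
  toFun p := (⟨((e p.1.1).1, (e p.1.2).1),
      ((isCoprime_prod_iff _ _).mp ((isCoprime_ringEquiv_iff e _ _).mpr p.2)).1⟩,
    ⟨((e p.1.1).2, (e p.1.2).2),
      ((isCoprime_prod_iff _ _).mp ((isCoprime_ringEquiv_iff e _ _).mpr p.2)).2⟩)
  invFun q := ⟨(e.symm (q.1.1.1, q.2.1.1), e.symm (q.1.1.2, q.2.1.2)), by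
    rw [← isCoprime_ringEquiv_iff e]
    simp only [RingEquiv.apply_symm_apply]
    exact (isCoprime_prod_iff _ _).mpr ⟨q.1.2, q.2.2⟩⟩
  left_inv p := by
    apply Subtype.ext
    simp
  right_inv q := by
    apply Prod.ext <;> apply Subtype.ext <;> simp

theorem card_prim_mul {m n : ℕ} (h : m.Coprime n) :
    Nat.card (Prim (m * n)) = Nat.card (Prim m) * Nat.card (Prim n) := by
  rw [Nat.card_congr (primProdEquivGen (ZMod.chineseRemainder h)), Nat.card_prod]

theorem isCoprime_of_isUnit_left' {R : Type*} [CommRing R] {a c : R} (h : IsUnit a) :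
    IsCoprime a c := by
  obtain ⟨b, hb⟩ := h.exists_left_inv
  exact ⟨b, 0, by rw [hb]; ring⟩

theorem isCoprime_of_isUnit_right' {R : Type*} [CommRing R] {a c : R} (h : IsUnit c) :
    IsCoprime a c := by
  obtain ⟨b, hb⟩ := h.exists_left_inv
  exact ⟨0, b, by rw [hb]; ring⟩

/-! ## primitive vectors: prime powers -/

theorem exists_eq_prime_mul_of_not_isUnit {p k : ℕ} (hp : p.Prime) (a : ZMod (p ^ k))
    (ha : ¬ IsUnit a) : ∃ a' : ZMod (p ^ k), a = (p : ZMod (p ^ k)) * a' := by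
  have : NeZero (p ^ k) := ⟨pow_ne_zero _ hp.ne_zero⟩
  have h1 : ¬ (a.val).Coprime (p ^ k) := by
    intro h
    apply ha
    have := (ZMod.isUnit_iff_coprime a.val (p ^ k)).mpr h
    rwa [ZMod.natCast_zmod_val] at this
  have h2 : p ∣ a.val := by
    by_contra hnd
    exact h1 (Nat.Coprime.pow_right k ((Nat.Prime.coprime_iff_not_dvd hp).mpr hnd).symm)
  obtain ⟨b, hb⟩ := h2
  refine ⟨(b : ZMod (p ^ k)), ?_⟩
  rw [← ZMod.natCast_zmod_val a, hb]
  push_cast
  rfl

theorem isCoprime_iff_isUnit_or {p k : ℕ} (hp : p.Prime) (hk : 0 < k) (a c : ZMod (p ^ k)) :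
    IsCoprime a c ↔ IsUnit a ∨ IsUnit c := by
  constructor
  · rintro ⟨x, y, hxy⟩
    by_contra hcon
    rw [not_or] at hcon
    obtain ⟨a', rfl⟩ := exists_eq_prime_mul_of_not_isUnit hp a hcon.1
    obtain ⟨c', rfl⟩ := exists_eq_prime_mul_of_not_isUnit hp c hcon.2
    have hu : IsUnit (p : ZMod (p ^ k)) :=
      IsUnit.of_mul_eq_one (x * a' + y * c') (by linear_combination hxy)
    have := (ZMod.isUnit_iff_coprime p (p ^ k)).mp hu
    have h3 : p ∣ p ^ k := dvd_pow_self p hk.ne'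
    have h4 : p ∣ Nat.gcd p (p ^ k) := Nat.dvd_gcd dvd_rfl h3
    rw [Nat.Coprime] at this
    rw [this] at h4
    exact hp.one_lt.ne' (Nat.dvd_one.mp h4)
  · rintro (h | h)
    · exact isCoprime_of_isUnit_left' h
    · exact isCoprime_of_isUnit_right' h

theorem card_isUnit_subtype (N : ℕ) [NeZero N] :
    Nat.card {a : ZMod N // IsUnit a} = Nat.totient N := by
  rw [← ZMod.card_units_eq_totient, ← Nat.card_eq_fintype_card]
  apply Nat.card_congr
  exact (Equiv.ofBijective (fun u : (ZMod N)ˣ => (⟨u.1, u.isUnit⟩ : {a : ZMod N // IsUnit a}))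
    ⟨fun u v h => Units.ext (congrArg Subtype.val h), fun ⟨a, ha⟩ => ⟨ha.unit, rfl⟩⟩).symm

theorem card_not_isUnit_subtype (N : ℕ) [NeZero N] :
    Nat.card {a : ZMod N // ¬ IsUnit a} + Nat.totient N = N := by
  classical
  rw [← card_isUnit_subtype N, Nat.card_eq_fintype_card, Nat.card_eq_fintype_card,
    Fintype.card_subtype_compl, Nat.sub_add_cancel (Fintype.card_subtype_le _), ZMod.card]

theorem card_prim_prime_pow_aux {p k : ℕ} (hp : p.Prime) (hk : 0 < k) :
    Nat.card (Prim (p ^ k)) + (Nat.card {a : ZMod (p ^ k) // ¬ IsUnit a}) ^ 2 = (p ^ k) ^ 2 := by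
  classical
  have : NeZero (p ^ k) := ⟨pow_ne_zero _ hp.ne_zero⟩
  have e1 : Prim (p ^ k) ≃ {q : ZMod (p ^ k) × ZMod (p ^ k) // IsUnit q.1 ∨ IsUnit q.2} :=
    Equiv.subtypeEquivRight (fun q => isCoprime_iff_isUnit_or hp hk q.1 q.2)
  have e2 : {q : ZMod (p ^ k) × ZMod (p ^ k) // ¬ (IsUnit q.1 ∨ IsUnit q.2)} ≃
      {a : ZMod (p ^ k) // ¬ IsUnit a} × {a : ZMod (p ^ k) // ¬ IsUnit a} :=
    { toFun := fun q => (⟨q.1.1, fun h => q.2 (Or.inl h)⟩, ⟨q.1.2, fun h => q.2 (Or.inr h)⟩)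
      invFun := fun r => ⟨(r.1.1, r.2.1), fun h => h.elim r.1.2 r.2.2⟩
      left_inv := fun q => rfl
      right_inv := fun r => rfl }
  rw [Nat.card_congr e1, sq, ← Nat.card_prod, ← Nat.card_congr e2, Nat.card_eq_fintype_card,
    Nat.card_eq_fintype_card, Fintype.card_subtype_compl,
    Nat.add_sub_cancel' (Fintype.card_subtype_le _), Fintype.card_prod, ZMod.card, sq]

theorem card_prim_prime_pow {p k : ℕ} (hp : p.Prime) (hk : 0 < k) :
    Nat.card (Prim (p ^ k)) = Nat.totient (p ^ k) * ModularCurve.dedekindPsi (p ^ k) := by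
  have : NeZero (p ^ k) := ⟨pow_ne_zero _ hp.ne_zero⟩
  have h1 := card_prim_prime_pow_aux hp hk
  have h2 := card_not_isUnit_subtype (p ^ k)
  rw [dedekindPsi_prime_pow hp hk]
  rw [Nat.totient_prime_pow hp hk] at h2 ⊢
  obtain ⟨j, rfl⟩ : ∃ j, k = j + 1 := ⟨k - 1, by omega⟩
  obtain ⟨q, rfl⟩ : ∃ q, p = q + 1 := ⟨p - 1, by have := hp.pos; omega⟩
  simp only [Nat.add_sub_cancel] at h2 ⊢
  have h3 : Nat.card {a : ZMod ((q + 1) ^ (j + 1)) // ¬ IsUnit a} = (q + 1) ^ j := by
    have : (q + 1) ^ (j + 1) = (q + 1) ^ j + (q + 1) ^ j * q := by ring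
    omega
  rw [h3] at h1
  have h4 : ((q + 1) ^ (j + 1)) ^ 2 =
      (q + 1) ^ j * q * ((q + 1) ^ (j + 1) + (q + 1) ^ j) + ((q + 1) ^ j) ^ 2 := by ring
  omega

/-- D1' -/
theorem card_prim (N : ℕ) :
    Nat.card (Prim N) = Nat.totient N * ModularCurve.dedekindPsi N := by
  induction N using Nat.recOnPosPrimePosCoprime with
  | prime_pow p n hp hn => exact card_prim_prime_pow hp hn
  | zero =>
    have hinf : Infinite (Prim 0) := by
      refine Infinite.of_injective (fun n : ℕ => (⟨((n : ℤ), (1 : ℤ)), isCoprime_one_right⟩ : Prim 0))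
        (fun a b h => ?_)
      have := congrArg (fun q : Prim 0 => q.1.1) h
      simp only at this
      exact Int.natCast_inj.mp this
    rw [Nat.card_eq_zero_of_infinite]
    simp
  | one =>
    have : Subsingleton (ZMod 1) := inferInstanceAs (Subsingleton (Fin 1))
    have : Unique (Prim 1) :=
      ⟨⟨⟨(0, 0), ⟨0, 0, Subsingleton.elim _ _⟩⟩⟩, fun q => Subtype.ext (Subsingleton.elim _ _)⟩
    simp
  | coprime a b _ _ hab ha hb =>
    rw [card_prim_mul hab, ha, hb, Nat.totient_mul hab, dedekindPsi_mul hab]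
    ring

/-- D1: the index of `Γ0(N)` is `ψ(N)`. -/
theorem card_quotient (N : ℕ) [NeZero N] :
    Nat.card (SL(2, ℤ) ⧸ Gamma0 N) = ModularCurve.dedekindPsi N := by
  have h := card_X0_mul_totient N
  rw [card_prim, mul_comm] at h
  exact Nat.eq_of_mul_eq_mul_left (Nat.totient_pos.mpr (Nat.pos_of_ne_zero (NeZero.ne N))) h

end Fermat.Agent.Lib.Gamma0Count
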