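import Mathlib

/-!
# Scott's lemma (three-generator form) and Ree's inequality for permutation representations

For linear endomorphisms `A`, `B` of a finite-dimensional vector space `V`:
`rank (1 - A) + rank (1 - B) + rank (1 - A B) ≥ (dim V - dim (ker (1-A) ⊓ ker (1-B)))
  + dim (range (1-A) ⊔ range (1-B))`.
-/

set_option autoImplicit false

open Module LinearMap

namespace Fermat.Agent.Lib.Gamma0Count

section Scott

variable {k V : Type*} [Field k] [AddCommGroup V] [Module k V] [FiniteDimensional k V]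

/-- The middle term of Scott's complex. -/
abbrev ScottC (A B : V →ₗ[k] V) : Type _ :=
  (↥(range (1 - A)) × ↥(range (1 - B))) × ↥(range (1 - A * B))

/-- The map `δ (a, b, c) = a + A b + c`. -/
noncomputable def scottDelta (A B : V →ₗ[k] V) : ScottC A B →ₗ[k] V :=
  ((range (1 - A)).subtype.coprod (A ∘ₗ (range (1 - B)).subtype)).coprod
    (range (1 - A * B)).subtype

/-- The map `β v = ((1 - A) v, (1 - B) v, -(1 - A B) v)`. -/
noncomputable def scottBeta (A B : V →ₗ[k] V) : V →ₗ[k] ScottC A B :=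
  (((1 - A).rangeRestrict).prod ((1 - B).rangeRestrict)).prod (-((1 - A * B).rangeRestrict))

theorem scottDelta_scottBeta_apply (A B : V →ₗ[k] V) (v : V) :
    scottDelta A B (scottBeta A B v) = 0 := by
  have h1 : ((scottBeta A B v).1.1 : V) = v - A v := rfl
  have h2 : ((scottBeta A B v).1.2 : V) = v - B v := rfl
  have h3 : ((scottBeta A B v).2 : V) = -(v - A (B v)) := rfl
  have h4 : scottDelta A B (scottBeta A B v) =
      ((scottBeta A B v).1.1 : V) + A ((scottBeta A B v).1.2 : V) + ((scottBeta A B v).2 : V) :=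
    rfl
  rw [h4, h1, h2, h3, map_sub]
  abel

theorem ker_scottBeta_le (A B : V →ₗ[k] V) :
    ker (scottBeta A B) ≤ ker (1 - A) ⊓ ker (1 - B) := by
  intro v hv
  rw [LinearMap.mem_ker] at hv
  have h1 : ((scottBeta A B v).1.1 : V) = v - A v := rfl
  have h2 : ((scottBeta A B v).1.2 : V) = v - B v := rfl
  rw [hv] at h1 h2
  refine ⟨LinearMap.mem_ker.mpr ?_, LinearMap.mem_ker.mpr ?_⟩
  · show v - A v = 0
    rw [← h1]; rfl
  · show v - B v = 0
    rw [← h2]; rfl

theorem sup_range_le_range_scottDelta (A B : V →ₗ[k] V) :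
    range (1 - A) ⊔ range (1 - B) ≤ range (scottDelta A B) := by
  refine sup_le ?_ ?_
  · rintro _ ⟨v, rfl⟩
    refine ⟨((⟨(1 - A) v, ⟨v, rfl⟩⟩, 0), 0), ?_⟩
    show (1 - A) v + A (0 : V) + (0 : V) = (1 - A) v
    simp
  · rintro _ ⟨v, rfl⟩
    refine ⟨((⟨(1 - A) ((1 - B) v), ⟨_, rfl⟩⟩, ⟨(1 - B) v, ⟨v, rfl⟩⟩), 0), ?_⟩
    show (1 - A) ((1 - B) v) + A ((1 - B) v) + (0 : V) = (1 - B) v
    simp

/-- **Scott's lemma**. -/
theorem scott_ineq (A B : V →ₗ[k] V) :
    finrank k V + finrank k ↥(range (1 - A) ⊔ range (1 - B))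
      ≤ finrank k ↥(range (1 - A)) + finrank k ↥(range (1 - B)) + finrank k ↥(range (1 - A * B))
        + finrank k ↥(ker (1 - A) ⊓ ker (1 - B)) := by
  have hC : finrank k (ScottC A B) =
      finrank k ↥(range (1 - A)) + finrank k ↥(range (1 - B))
        + finrank k ↥(range (1 - A * B)) := by
    rw [Module.finrank_prod, Module.finrank_prod]
  have h1 := LinearMap.finrank_range_add_finrank_ker (scottDelta A B)
  have h2 := LinearMap.finrank_range_add_finrank_ker (scottBeta A B)
  have h3 : finrank k ↥(range (scottBeta A B)) ≤ finrank k ↥(ker (scottDelta A B)) := by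
    apply Submodule.finrank_mono
    rintro _ ⟨v, rfl⟩
    rw [LinearMap.mem_ker]
    exact scottDelta_scottBeta_apply A B v
  have h4 : finrank k ↥(ker (scottBeta A B)) ≤ finrank k ↥(ker (1 - A) ⊓ ker (1 - B)) :=
    Submodule.finrank_mono (ker_scottBeta_le A B)
  have h5 : finrank k ↥(range (1 - A) ⊔ range (1 - B)) ≤ finrank k ↥(range (scottDelta A B)) :=
    Submodule.finrank_mono (sup_range_le_range_scottDelta A B)
  omega

end Scott

end Fermat.Agent.Lib.Gamma0Count
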