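import Mathlib
import Fermat.Agent.Lib.Gamma0Count.Scott

/-!
# Ree's inequality for a transitive action of a two-generator group

If `G = ⟨x, y⟩` acts transitively on a finite set `X` with `n` elements and `c(g)` denotes the
number of orbits of `⟨g⟩`, then `c(x) + c(y) + c(x y) ≤ n + 2`.
-/

set_option autoImplicit false

open Module LinearMap MulAction

namespace Fermat.Agent.Lib.Gamma0Count

variable {G X : Type*} [Group G] [MulAction G X]

/-- The permutation operator `(P g f) a = f (g • a)` on `X → ℚ`. -/
noncomputable def permOp (g : G) : (X → ℚ) →ₗ[ℚ] (X → ℚ) :=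
  LinearMap.funLeft ℚ ℚ (fun a : X => g • a)

theorem permOp_apply (g : G) (f : X → ℚ) (a : X) : permOp g f a = f (g • a) := rfl

theorem permOp_mul (x y : G) : permOp (X := X) (x * y) = permOp y * permOp x := by
  ext f a
  simp [permOp_apply, mul_smul]

theorem mem_ker_one_sub_permOp {g : G} {f : X → ℚ} :
    f ∈ ker (1 - permOp (X := X) g) ↔ ∀ a, f (g • a) = f a := by
  rw [LinearMap.mem_ker]
  constructor
  · intro h a
    have := congrFun h a
    simp only [LinearMap.sub_apply, Module.End.one_apply, Pi.sub_apply, permOp_apply,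
      Pi.zero_apply] at this
    linarith
  · intro h
    funext a
    simp only [LinearMap.sub_apply, Module.End.one_apply, Pi.sub_apply, permOp_apply,
      Pi.zero_apply]
    rw [h a, sub_self]

/-- The set of group elements leaving a function invariant is a subgroup. -/
def invSubgroup (f : X → ℚ) : Subgroup G where
  carrier := {h | ∀ a, f (h • a) = f a}
  one_mem' := fun a => by simp
  mul_mem' := by
    intro g h hg hh a
    rw [mul_smul, hg, hh]
  inv_mem' := by
    intro g hg a
    have := hg (g⁻¹ • a)
    rw [smul_inv_smul] at this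
    exact this.symm

theorem mem_invSubgroup {f : X → ℚ} {h : G} : h ∈ invSubgroup (G := G) f ↔ ∀ a, f (h • a) = f a :=
  Iff.rfl

/-- The fixed space of `P g` has dimension the number of orbits of `⟨g⟩`. -/
theorem finrank_ker_one_sub_permOp [Finite X] (g : G) :
    finrank ℚ ↥(ker (1 - permOp (X := X) g)) =
      Nat.card (orbitRel.Quotient (Subgroup.zpowers g) X) := by
  classical
  haveI := Fintype.ofFinite X
  haveI : Fintype (orbitRel.Quotient (Subgroup.zpowers g) X) := Fintype.ofFinite _
  set q : X → orbitRel.Quotient (Subgroup.zpowers g) X := Quotient.mk'' with hq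
  have hqsurj : Function.Surjective q := Quotient.mk''_surjective
  set L : (orbitRel.Quotient (Subgroup.zpowers g) X → ℚ) →ₗ[ℚ] (X → ℚ) :=
    LinearMap.funLeft ℚ ℚ q with hL
  have hLinj : Function.Injective L := LinearMap.funLeft_injective_of_surjective ℚ ℚ q hqsurj
  have hrange : range L = ker (1 - permOp (X := X) g) := by
    apply le_antisymm
    · rintro _ ⟨φ, rfl⟩
      rw [mem_ker_one_sub_permOp]
      intro a
      show φ (q (g • a)) = φ (q a)
      congr 1
      apply Quotient.sound'
      rw [orbitRel_apply]
      exact ⟨⟨g, Subgroup.mem_zpowers g⟩, rfl⟩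
    · intro f hf
      rw [mem_ker_one_sub_permOp] at hf
      have hsub : Subgroup.zpowers g ≤ invSubgroup (G := G) f := by
        rw [Subgroup.zpowers_le]
        exact hf
      refine ⟨Quotient.lift f ?_, ?_⟩
      · intro a b hab
        have hab' : a ∈ orbit (Subgroup.zpowers g) b := hab
        obtain ⟨⟨h, hh⟩, rfl⟩ := hab'
        exact hsub hh b
      · funext a
        rfl
  rw [← hrange, LinearMap.finrank_range_of_inj hLinj, Module.finrank_fintype_fun_eq_card,
    Nat.card_eq_fintype_card]

theorem finrank_range_one_sub_permOp [Finite X] (g : G) :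
    finrank ℚ ↥(range (1 - permOp (X := X) g)) +
      Nat.card (orbitRel.Quotient (Subgroup.zpowers g) X) = Nat.card X := by
  classical
  haveI := Fintype.ofFinite X
  have := LinearMap.finrank_range_add_finrank_ker (1 - permOp (X := X) g)
  rw [finrank_ker_one_sub_permOp, Module.finrank_fintype_fun_eq_card] at this
  rw [this, Nat.card_eq_fintype_card]

variable [IsPretransitive G X]

theorem finrank_inf_ker_le_one [Finite X] [Nonempty X] (x y : G)
    (hgen : Subgroup.closure {x, y} = ⊤) :
    finrank ℚ ↥(ker (1 - permOp (X := X) x) ⊓ ker (1 - permOp (X := X) y)) ≤ 1 := by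
  classical
  haveI := Fintype.ofFinite X
  obtain ⟨a₀⟩ := ‹Nonempty X›
  have hle : ker (1 - permOp (X := X) x) ⊓ ker (1 - permOp (X := X) y) ≤
      Submodule.span ℚ {(fun _ => (1 : ℚ) : X → ℚ)} := by
    rintro f ⟨hfx, hfy⟩
    have hx := mem_ker_one_sub_permOp.mp hfx
    have hy := mem_ker_one_sub_permOp.mp hfy
    have htop : invSubgroup (G := G) f = ⊤ := by
      rw [eq_top_iff, ← hgen, Subgroup.closure_le]
      rintro g (rfl | rfl)
      · exact hx
      · exact hy
    rw [Submodule.mem_span_singleton]
    refine ⟨f a₀, ?_⟩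
    funext b
    obtain ⟨h, rfl⟩ := MulAction.exists_smul_eq G a₀ b
    have : h ∈ invSubgroup (G := G) f := by rw [htop]; trivial
    simp [this a₀]
  calc finrank ℚ ↥(ker (1 - permOp (X := X) x) ⊓ ker (1 - permOp (X := X) y))
      ≤ finrank ℚ ↥(Submodule.span ℚ {(fun _ => (1 : ℚ) : X → ℚ)}) := Submodule.finrank_mono hle
    _ ≤ 1 := by
        refine (finrank_span_le_card ({(fun _ => (1 : ℚ) : X → ℚ)} : Set (X → ℚ))).trans ?_
        simp

theorem finrank_sup_range_ge [Finite X] [Nonempty X] (x y : G)
    (hgen : Subgroup.closure {x, y} = ⊤) :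
    Nat.card X ≤
      finrank ℚ ↥(range (1 - permOp (X := X) x) ⊔ range (1 - permOp (X := X) y)) + 1 := by
  classical
  haveI := Fintype.ofFinite X
  obtain ⟨a₀⟩ := ‹Nonempty X›
  set U := range (1 - permOp (X := X) x) ⊔ range (1 - permOp (X := X) y) with hU
  -- the subgroup of elements acting trivially on the classes of the basis vectors
  let H : Subgroup G :=
    { carrier := {h | ∀ a : X, U.mkQ (Pi.single (h • a) (1 : ℚ)) = U.mkQ (Pi.single a (1 : ℚ))}
      one_mem' := fun a => by simp
      mul_mem' := by
        intro g h hg hh a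
        rw [mul_smul, hg, hh]
      inv_mem' := by
        intro g hg a
        have := hg (g⁻¹ • a)
        rw [smul_inv_smul] at this
        exact this.symm }
  have hgenmem : ∀ g : G, range (1 - permOp (X := X) g) ≤ U → g ∈ H := by
    intro g hg a
    rw [← sub_eq_zero, ← map_sub, Submodule.mkQ_apply, Submodule.Quotient.mk_eq_zero]
    apply hg
    refine ⟨Pi.single (g • a) (1 : ℚ), ?_⟩
    funext b
    simp only [LinearMap.sub_apply, Module.End.one_apply, Pi.sub_apply, permOp_apply]
    congr 1
    by_cases hb : b = a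
    · subst hb
      simp
    · have : g • b ≠ g • a := fun h => hb (MulAction.injective g h)
      simp [Pi.single_apply, hb, this]
  have hHtop : H = ⊤ := by
    rw [eq_top_iff, ← hgen, Subgroup.closure_le]
    rintro g (rfl | rfl)
    · exact hgenmem _ le_sup_left
    · exact hgenmem _ le_sup_right
  have hall : ∀ a : X, U.mkQ (Pi.single a (1 : ℚ)) = U.mkQ (Pi.single a₀ (1 : ℚ)) := by
    intro a
    obtain ⟨h, rfl⟩ := MulAction.exists_smul_eq G a₀ a
    have : h ∈ H := by rw [hHtop]; trivial
    exact this a₀
  have hquot : finrank ℚ ((X → ℚ) ⧸ U) ≤ 1 := by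
    refine finrank_le_one (U.mkQ (Pi.single a₀ (1 : ℚ))) ?_
    intro w
    obtain ⟨v, rfl⟩ := Submodule.mkQ_surjective U w
    refine ⟨∑ a, v a, ?_⟩
    have hv : v = ∑ a, v a • (Pi.single a (1 : ℚ) : X → ℚ) := by
      funext b
      simp [Finset.sum_apply, Pi.single_apply]
    conv_rhs => rw [hv]
    rw [map_sum, Finset.sum_smul]
    refine Finset.sum_congr rfl (fun a _ => ?_)
    rw [map_smul, hall a]
  have := Submodule.finrank_quotient_add_finrank U
  rw [Module.finrank_fintype_fun_eq_card] at this
  rw [Nat.card_eq_fintype_card]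
  omega

/-- **Ree's inequality** (three permutations with product one, via Scott's lemma). -/
theorem ree_ineq [Finite X] [Nonempty X] (x y : G) (hgen : Subgroup.closure {x, y} = ⊤) :
    Nat.card (orbitRel.Quotient (Subgroup.zpowers x) X)
      + Nat.card (orbitRel.Quotient (Subgroup.zpowers y) X)
      + Nat.card (orbitRel.Quotient (Subgroup.zpowers (x * y)) X) ≤ Nat.card X + 2 := by
  classical
  haveI := Fintype.ofFinite X
  have hn : finrank ℚ (X → ℚ) = Nat.card X := by
    rw [Module.finrank_fintype_fun_eq_card, Nat.card_eq_fintype_card]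
  have h1 := scott_ineq (permOp (X := X) y) (permOp (X := X) x)
  rw [← permOp_mul, hn] at h1
  have h2 := finrank_range_one_sub_permOp (X := X) x
  have h3 := finrank_range_one_sub_permOp (X := X) y
  have h4 := finrank_range_one_sub_permOp (X := X) (x * y)
  have h5 := finrank_inf_ker_le_one (X := X) x y hgen
  have h6 := finrank_sup_range_ge (X := X) x y hgen
  rw [inf_comm] at h5
  rw [sup_comm] at h6
  omega

end Fermat.Agent.Lib.Gamma0Count
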