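import Mathlib
import Fermat.Agent.Lib.Gamma0Count.ReeIneq
import Fermat.Agent.Lib.Gamma0Count.Orbits

/-!
# Ree's theorem (parity + inequality) and orbits of an element of prime order

* `ree_abstract`: for a finite transitive `G`-set `X`, `G` generated by `x, y`:
  `|X| + 2 - c(x) - c(y) - c(x*y)` is a nonnegative even integer.
* `ree_parity`: the instance `G = SL(2, ℤ)`, `X = SL(2, ℤ) ⧸ Γ₀(N)`.
* `card_orbits_zpowers_of_prime`: orbit count of an element acting with `g ^ p = 1`.
-/

set_option autoImplicit false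

open Equiv Equiv.Perm MulAction
open scoped MatrixGroups
open CongruenceSubgroup

namespace Fermat.Agent.Lib.Gamma0Count

section bridge

variable {G X : Type*} [Group G] [MulAction G X]

theorem toPerm_zpow_apply (g : G) (k : ℤ) (a : X) :
    ((MulAction.toPerm g : Perm X) ^ k) a = g ^ k • a := by
  have h : (MulAction.toPerm g : Perm X) ^ k = MulAction.toPerm (g ^ k) := by
    have := map_zpow (MulAction.toPermHom G X) g k
    simpa [MulAction.toPermHom_apply] using this.symm
  rw [h]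
  rfl

theorem orbitRel_zpowers_iff_sameCycle (g : G) (a b : X) :
    (MulAction.orbitRel (Subgroup.zpowers g) X) a b ↔
      (MulAction.toPerm g : Perm X).SameCycle b a := by
  rw [MulAction.orbitRel_apply]
  constructor
  · rintro ⟨⟨h, hh⟩, rfl⟩
    obtain ⟨k, rfl⟩ := Subgroup.mem_zpowers_iff.mp hh
    exact ⟨k, toPerm_zpow_apply g k b⟩
  · rintro ⟨k, hk⟩
    refine ⟨⟨g ^ k, Subgroup.mem_zpowers_iff.mpr ⟨k, rfl⟩⟩, ?_⟩
    rw [← hk, toPerm_zpow_apply]
    rfl

theorem card_orbitRel_zpowers_eq (g : G) :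
    Nat.card (MulAction.orbitRel.Quotient (Subgroup.zpowers g) X) =
      Nat.card (Quotient (SameCycle.setoid (MulAction.toPerm g : Perm X))) := by
  refine Nat.card_congr (Quotient.congr (Equiv.refl X) ?_)
  intro a b
  show (MulAction.orbitRel (Subgroup.zpowers g) X) a b ↔
    (MulAction.toPerm g : Perm X).SameCycle a b
  rw [orbitRel_zpowers_iff_sameCycle]
  exact ⟨fun h => h.symm, fun h => h.symm⟩

end bridge

section ree

variable {G X : Type*} [Group G] [MulAction G X]

/-- Parity of the Riemann–Hurwitz count. -/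
theorem ree_even [Finite X] (x y : G) :
    Even (Nat.card X
      + Nat.card (MulAction.orbitRel.Quotient (Subgroup.zpowers x) X)
      + Nat.card (MulAction.orbitRel.Quotient (Subgroup.zpowers y) X)
      + Nat.card (MulAction.orbitRel.Quotient (Subgroup.zpowers (x * y)) X)) := by
  classical
  letI := Fintype.ofFinite X
  rw [card_orbitRel_zpowers_eq x, card_orbitRel_zpowers_eq y, card_orbitRel_zpowers_eq (x * y)]
  set cx := Nat.card (Quotient (SameCycle.setoid (MulAction.toPerm x : Perm X))) with hcx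
  set cy := Nat.card (Quotient (SameCycle.setoid (MulAction.toPerm y : Perm X))) with hcy
  set cxy := Nat.card (Quotient (SameCycle.setoid (MulAction.toPerm (x * y) : Perm X))) with hcxy
  have hx := sign_eq_neg_one_pow_card (MulAction.toPerm x : Perm X)
  have hy := sign_eq_neg_one_pow_card (MulAction.toPerm y : Perm X)
  have hxy := sign_eq_neg_one_pow_card (MulAction.toPerm (x * y) : Perm X)
  have hmul : (MulAction.toPerm (x * y) : Perm X) = MulAction.toPerm x * MulAction.toPerm y := by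
    ext a
    simp [mul_smul]
  rw [hmul, Perm.sign_mul] at hxy
  rw [← hmul] at hxy
  push_cast at hxy
  rw [hx, hy, ← pow_add] at hxy
  rw [Nat.card_eq_fintype_card]
  -- (-1)^(A) = (-1)^(B) in ℤ implies A ≡ B mod 2
  have key : ∀ A B : ℕ, ((-1 : ℤ)) ^ A = (-1) ^ B → Even (A + B) := by
    intro A B h
    rcases Nat.even_or_odd A with hA | hA <;> rcases Nat.even_or_odd B with hB | hB
    · exact hA.add hB
    · rw [hA.neg_one_pow, hB.neg_one_pow] at h
      norm_num at h
    · rw [hA.neg_one_pow, hB.neg_one_pow] at h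
      norm_num at h
    · exact hA.add_odd hB
  have h := key _ _ hxy
  rw [← hcx, ← hcy, ← hcxy] at h
  have h2 : Fintype.card X + cx + cy + cxy + 2 * (Fintype.card X)
      = Fintype.card X + cx + (Fintype.card X + cy) + (Fintype.card X + cxy) := by ring
  have h3 : Even (Fintype.card X + cx + cy + cxy + 2 * (Fintype.card X)) := by
    rw [h2]; exact h
  rcases Nat.even_or_odd (Fintype.card X + cx + cy + cxy) with h4 | h4
  · exact h4
  · exact absurd h3 (by
      rw [Nat.not_even_iff_odd]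
      exact h4.add_even (even_two_mul _))

/-- **Ree's theorem**: `n + 2 - c(x) - c(y) - c(x*y)` is even and `≥ 0`. -/
theorem ree_abstract [Finite X] [Nonempty X]
    [MulAction.IsPretransitive G X] (x y : G) (hgen : Subgroup.closure {x, y} = ⊤) :
    ∃ g : ℕ, (Nat.card X : ℤ) + 2
      - Nat.card (MulAction.orbitRel.Quotient (Subgroup.zpowers x) X)
      - Nat.card (MulAction.orbitRel.Quotient (Subgroup.zpowers y) X)
      - Nat.card (MulAction.orbitRel.Quotient (Subgroup.zpowers (x * y)) X) = 2 * g := by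
  have h1 := ree_ineq (X := X) x y hgen
  obtain ⟨r, hr⟩ := ree_even (X := X) x y
  set n := Nat.card X
  set cx := Nat.card (MulAction.orbitRel.Quotient (Subgroup.zpowers x) X)
  set cy := Nat.card (MulAction.orbitRel.Quotient (Subgroup.zpowers y) X)
  set cxy := Nat.card (MulAction.orbitRel.Quotient (Subgroup.zpowers (x * y)) X)
  refine ⟨n + 1 - r, ?_⟩
  have h3 : r ≤ n + 1 := by omega
  push_cast [Nat.cast_sub h3]
  have hr' : (n : ℤ) + cx + cy + cxy = r + r := by exact_mod_cast hr
  linarith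

end ree

/-- D5: `n + 2 - c₀ - c₁ - c∞` is even and nonnegative for `Γ₀(N)`. -/
theorem ree_parity (N : ℕ) [NeZero N] :
    ∃ g : ℕ, (Nat.card (SL(2, ℤ) ⧸ Gamma0 N) : ℤ) + 2
      - Nat.card (MulAction.orbitRel.Quotient (Subgroup.zpowers (ModularGroup.S * ModularGroup.T))
          (SL(2, ℤ) ⧸ Gamma0 N))
      - Nat.card (MulAction.orbitRel.Quotient (Subgroup.zpowers ModularGroup.S)
          (SL(2, ℤ) ⧸ Gamma0 N))
      - Nat.card (MulAction.orbitRel.Quotient (Subgroup.zpowers ModularGroup.T)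
          (SL(2, ℤ) ⧸ Gamma0 N)) = 2 * g := by
  have : Finite (SL(2, ℤ) ⧸ Gamma0 N) := Subgroup.finite_quotient_of_finiteIndex
  obtain ⟨g, hg⟩ := ree_abstract (X := SL(2, ℤ) ⧸ Gamma0 N) ModularGroup.S ModularGroup.T
    SpecialLinearGroup.SL2Z_generators
  -- the two `MulAction` instances of `zpowers _` on the quotient agree definitionally
  have hg' : (Nat.card (SL(2, ℤ) ⧸ Gamma0 N) : ℤ) + 2
      - Nat.card (MulAction.orbitRel.Quotient (Subgroup.zpowers ModularGroup.S)
          (SL(2, ℤ) ⧸ Gamma0 N))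
      - Nat.card (MulAction.orbitRel.Quotient (Subgroup.zpowers ModularGroup.T)
          (SL(2, ℤ) ⧸ Gamma0 N))
      - Nat.card (MulAction.orbitRel.Quotient (Subgroup.zpowers (ModularGroup.S * ModularGroup.T))
          (SL(2, ℤ) ⧸ Gamma0 N)) = 2 * g := hg
  exact ⟨g, by rw [← hg']; ring⟩

section prime

variable {G X : Type*} [Group G] [MulAction G X]

/-- D6 (generic): orbits of a cyclic group of prime order `p`. -/
theorem card_orbits_zpowers_of_prime [Finite X]
    (g : G) (p : ℕ) (hp : p.Prime) (hg : ∀ x : X, g ^ p • x = x) :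
    p * Nat.card (MulAction.orbitRel.Quotient (Subgroup.zpowers g) X)
      = Nat.card X + (p - 1) * Nat.card (MulAction.fixedBy X g) := by
  classical
  letI := Fintype.ofFinite X
  rw [card_orbitRel_zpowers_eq g]
  set σ : Perm X := MulAction.toPerm g with hσ
  have hσp : σ ^ p = 1 := by
    ext a
    have := toPerm_zpow_apply g (p : ℤ) a
    rw [zpow_natCast, zpow_natCast] at this
    rw [this, hg a]
    rfl
  have hall : ∀ m ∈ σ.cycleType, m = p := by
    intro m hm
    have h1 : m ∣ orderOf σ := dvd_of_mem_cycleType hm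
    have h2 : orderOf σ ∣ p := orderOf_dvd_of_pow_eq_one hσp
    have h3 : 2 ≤ m := two_le_of_mem_cycleType hm
    rcases (Nat.dvd_prime hp).mp (h1.trans h2) with h | h
    · omega
    · exact h
  have hsum : σ.cycleType.sum = Multiset.card σ.cycleType * p := by
    rw [Multiset.eq_replicate_card.mpr hall, Multiset.sum_replicate, Multiset.card_replicate,
      smul_eq_mul]
  have hc := card_sameCycle_quotient σ
  have hfix : Nat.card (MulAction.fixedBy X g) = Fintype.card X - σ.cycleType.sum := by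
    rw [← card_fixedPoints σ, Nat.card_eq_fintype_card]
    apply Fintype.card_congr
    refine Equiv.subtypeEquivRight ?_
    intro a
    rfl
  have hle := sum_cycleType_le σ
  rw [hfix, Nat.card_eq_fintype_card (α := X)]
  set k := Multiset.card σ.cycleType
  set c := Nat.card (Quotient (SameCycle.setoid σ))
  set n := Fintype.card X
  rw [hsum] at hc hle ⊢
  have hp1 : 1 ≤ p := hp.one_lt.le
  obtain ⟨q, rfl⟩ : ∃ q, p = q + 1 := ⟨p - 1, by omega⟩
  simp only [Nat.add_sub_cancel]
  -- c + k (q+1) = n + k,  goal: (q+1) c = n + q (n - k (q+1))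
  have hc' : c = n - k * q := by
    have : c + k * (q + 1) = n + k := hc
    have h5 : k * (q + 1) = k * q + k := by ring
    omega
  have h6 : k * (q + 1) ≤ n := hle
  obtain ⟨f, hf⟩ : ∃ f, n = f + k * (q + 1) := ⟨n - k * (q + 1), by omega⟩
  rw [hc', hf]
  have h7 : f + k * (q + 1) - k * q = f + k := by
    have h5 : k * (q + 1) = k * q + k := by ring
    omega
  rw [h7, Nat.add_sub_cancel]
  ring

end prime

section gamma0

/-- `-1` acts trivially on `SL(2, ℤ) ⧸ Γ₀(N)`. -/
theorem neg_one_smul_quotient (N : ℕ) (a : SL(2, ℤ) ⧸ Gamma0 N) :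
    (-1 : SL(2, ℤ)) • a = a := by
  induction a using QuotientGroup.induction_on with | _ h => ?_
  show ((((-1 : SL(2, ℤ)) * h : SL(2, ℤ)) : SL(2, ℤ) ⧸ Gamma0 N)) = (h : SL(2, ℤ) ⧸ Gamma0 N)
  rw [QuotientGroup.eq]
  have h1 : (-1 : SL(2, ℤ)) * h = h * (-1) := by
    rw [neg_mul, mul_neg, one_mul, mul_one]
  have h2 : ((-1 : SL(2, ℤ)) * h)⁻¹ * h = (-1 : SL(2, ℤ))⁻¹ := by
    rw [h1, mul_inv_rev, inv_mul_cancel_right]
  rw [h2, Gamma0_mem]
  simp

theorem S_pow_two_eq : ModularGroup.S ^ 2 = (-1 : SL(2, ℤ)) := by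
  apply Subtype.ext
  rw [pow_two]
  exact ModularGroup.S_mul_S_eq

theorem S_pow_two_smul_quotient (N : ℕ) (a : SL(2, ℤ) ⧸ Gamma0 N) :
    ModularGroup.S ^ 2 • a = a := by
  rw [S_pow_two_eq, neg_one_smul_quotient]

theorem ST_pow_three_eq : (ModularGroup.S * ModularGroup.T) ^ 3 = (-1 : SL(2, ℤ)) := by
  apply Subtype.ext
  rw [pow_succ, pow_two]
  simp only [Matrix.SpecialLinearGroup.coe_mul, ModularGroup.coe_S, ModularGroup.coe_T,
    Matrix.SpecialLinearGroup.coe_neg, Matrix.SpecialLinearGroup.coe_one]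
  ext i j
  fin_cases i <;> fin_cases j <;> simp [Matrix.mul_apply, Fin.sum_univ_two]

theorem ST_pow_three_smul_quotient (N : ℕ) (a : SL(2, ℤ) ⧸ Gamma0 N) :
    (ModularGroup.S * ModularGroup.T) ^ 3 • a = a := by
  rw [ST_pow_three_eq, neg_one_smul_quotient]

/-- Orbits of `S` on `SL(2, ℤ) ⧸ Γ₀(N)`: `2 c₁ = n + #Fix(S)`. -/
theorem two_mul_card_orbits_S (N : ℕ) [NeZero N] :
    2 * Nat.card (MulAction.orbitRel.Quotient (Subgroup.zpowers ModularGroup.S)
      (SL(2, ℤ) ⧸ Gamma0 N))
      = Nat.card (SL(2, ℤ) ⧸ Gamma0 N)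
        + Nat.card (MulAction.fixedBy (SL(2, ℤ) ⧸ Gamma0 N) ModularGroup.S) := by
  have : Finite (SL(2, ℤ) ⧸ Gamma0 N) := Subgroup.finite_quotient_of_finiteIndex
  have h := card_orbits_zpowers_of_prime (X := SL(2, ℤ) ⧸ Gamma0 N) ModularGroup.S 2
    Nat.prime_two (S_pow_two_smul_quotient N)
  have h' : 2 * Nat.card (MulAction.orbitRel.Quotient (Subgroup.zpowers ModularGroup.S)
      (SL(2, ℤ) ⧸ Gamma0 N))
      = Nat.card (SL(2, ℤ) ⧸ Gamma0 N)
        + (2 - 1) * Nat.card (MulAction.fixedBy (SL(2, ℤ) ⧸ Gamma0 N) ModularGroup.S) := h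
  rw [h']
  simp only [Nat.add_one_sub_one, one_mul]

/-- Orbits of `S * T` on `SL(2, ℤ) ⧸ Γ₀(N)`: `3 c₀ = n + 2 #Fix(ST)`. -/
theorem three_mul_card_orbits_ST (N : ℕ) [NeZero N] :
    3 * Nat.card (MulAction.orbitRel.Quotient (Subgroup.zpowers (ModularGroup.S * ModularGroup.T))
      (SL(2, ℤ) ⧸ Gamma0 N))
      = Nat.card (SL(2, ℤ) ⧸ Gamma0 N)
        + 2 * Nat.card (MulAction.fixedBy (SL(2, ℤ) ⧸ Gamma0 N)
            (ModularGroup.S * ModularGroup.T)) := by
  have : Finite (SL(2, ℤ) ⧸ Gamma0 N) := Subgroup.finite_quotient_of_finiteIndex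
  have h := card_orbits_zpowers_of_prime (X := SL(2, ℤ) ⧸ Gamma0 N)
    (ModularGroup.S * ModularGroup.T) 3 Nat.prime_three (ST_pow_three_smul_quotient N)
  have h' : 3 * Nat.card (MulAction.orbitRel.Quotient
      (Subgroup.zpowers (ModularGroup.S * ModularGroup.T)) (SL(2, ℤ) ⧸ Gamma0 N))
      = Nat.card (SL(2, ℤ) ⧸ Gamma0 N)
        + (3 - 1) * Nat.card (MulAction.fixedBy (SL(2, ℤ) ⧸ Gamma0 N)
            (ModularGroup.S * ModularGroup.T)) := h
  rw [h']

end gamma0

end Fermat.Agent.Lib.Gamma0Count
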